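import Fermat.Agent.S22.Defs

/-!
# S22 : `core_bound`

Uniform exponential bound for the difference between a primitive of `F(τ)(τ-τ₀)^n` at `τ₀`
and its limit along the vertical ray above `τ₀`.
-/

set_option autoImplicit false

open UpperHalfPlane Complex Filter Topology Polynomial MeasureTheory
open scoped MatrixGroups ModularForm Manifold

namespace Fermat.Agent.S22

/-- integrability of `t^n exp(-c t)` on `(0, ∞)` -/
theorem corebound_integrableOn (c : ℝ) (hc : 0 < c) (n : ℕ) :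
    IntegrableOn (fun t : ℝ ↦ t ^ n * Real.exp (-c * t)) (Set.Ioi 0) := by
  have hcont : ContinuousOn (fun t : ℝ ↦ t ^ n * Real.exp (-c * t)) (Set.Ici 0) := by fun_prop
  refine integrable_of_isBigO_exp_neg (b := c / 2) (by positivity) hcont ?_
  have h1 : (fun t : ℝ ↦ t ^ n) =o[atTop] fun t ↦ Real.exp ((c / 2) * t) :=
    isLittleO_pow_exp_pos_mul_atTop n (by positivity)
  have h2 : (fun t : ℝ ↦ t ^ n * Real.exp (-c * t)) =O[atTop]
      fun t ↦ Real.exp ((c / 2) * t) * Real.exp (-c * t) :=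
    h1.isBigO.mul (Asymptotics.isBigO_refl _ _)
  refine h2.congr_right (fun t => ?_)
  rw [← Real.exp_add]
  congr 1
  ring

theorem core_bound {F : ℍ → ℂ} (hF : Continuous F) {c : ℝ} (hc : 0 < c)
    (hdec : F =O[atImInfty] fun τ ↦ Real.exp (-c * τ.im)) (n : ℕ) :
    ∃ C A : ℝ, ∀ (τ₀ : ℍ) (H : ℂ → ℂ) (ℓ : ℂ), A ≤ τ₀.im →
      IsPrim H (fun τ ↦ F τ * ((τ : ℂ) - τ₀) ^ n) →
      Tendsto (fun t : ℝ ↦ H (τ₀ + Complex.I * t)) atTop (𝓝 ℓ) →
      ‖H τ₀ - ℓ‖ ≤ C * Real.exp (-c * τ₀.im) := by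
  obtain ⟨C₀, hC₀pos, hC₀⟩ := hdec.exists_pos
  obtain ⟨A, hA⟩ := (atImInfty_mem _).mp hC₀.bound
  set J : ℝ := ∫ t in Set.Ioi (0 : ℝ), t ^ n * Real.exp (-c * t) with hJ
  refine ⟨C₀ * J, A, fun τ₀ H ℓ hτ₀ hH hlim => ?_⟩
  -- the vertical path above `τ₀`, as a map into `ℍ`
  have him : ∀ t : ℝ, 0 < ((τ₀ : ℂ) + Complex.I * ((max t 0 : ℝ) : ℂ)).im := by
    intro t
    have h1 : ((τ₀ : ℂ) + Complex.I * ((max t 0 : ℝ) : ℂ)).im = τ₀.im + max t 0 := by simp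
    rw [h1]
    have := τ₀.im_pos
    have := le_max_right t 0
    linarith
  let p : ℝ → ℍ := fun t ↦ ⟨(τ₀ : ℂ) + Complex.I * ((max t 0 : ℝ) : ℂ), him t⟩
  have hp_cont : Continuous p := by
    apply Continuous.upperHalfPlaneMk
    fun_prop
  have hp_coe : ∀ t : ℝ, 0 ≤ t → ((p t : ℍ) : ℂ) = τ₀ + Complex.I * t := by
    intro t ht
    simp [p, max_eq_left ht]
  have hp_im : ∀ t : ℝ, 0 ≤ t → (p t).im = τ₀.im + t := by
    intro t ht
    rw [← UpperHalfPlane.coe_im, hp_coe t ht]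
    simp
  -- the derivative along the path
  let φ' : ℝ → ℂ := fun t ↦ Complex.I * (F (p t) * (Complex.I * (t : ℂ)) ^ n)
  have hφ'_cont : Continuous φ' := by
    have : Continuous (fun t ↦ F (p t)) := hF.comp hp_cont
    fun_prop
  have hderiv : ∀ t ∈ Set.Ioi (0 : ℝ),
      HasDerivAt (fun t : ℝ ↦ H (τ₀ + Complex.I * t)) (φ' t) t := by
    intro t ht
    have hpt := hp_coe t (le_of_lt ht)
    have h1 := hH (p t)
    rw [hpt] at h1
    have h2 : HasDerivAt (fun s : ℝ ↦ (τ₀ : ℂ) + Complex.I * (s : ℂ)) Complex.I t := by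
      have := ((hasDerivAt_id t).ofReal_comp.const_mul Complex.I).const_add (τ₀ : ℂ)
      simpa using this
    have h3 : HasDerivAt (fun t : ℝ ↦ H (τ₀ + Complex.I * t))
        (Complex.I • (F (p t) * (((p t : ℍ) : ℂ) - τ₀) ^ n)) t := HasDerivAt.scomp t h1 h2
    have hval : φ' t = Complex.I • (F (p t) * (((p t : ℍ) : ℂ) - τ₀) ^ n) := by
      simp [φ', hpt]
    rw [hval]
    exact h3
  have hcont : ContinuousWithinAt (fun t : ℝ ↦ H (τ₀ + Complex.I * t)) (Set.Ici 0) 0 := by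
    apply ContinuousAt.continuousWithinAt
    have h1 : ContinuousAt H ((τ₀ : ℂ) + Complex.I * ((0 : ℝ) : ℂ)) := by
      simpa using (hH τ₀).continuousAt
    have h2 : ContinuousAt (fun t : ℝ ↦ (τ₀ : ℂ) + Complex.I * (t : ℂ)) 0 := by fun_prop
    exact ContinuousAt.comp (f := fun t : ℝ ↦ (τ₀ : ℂ) + Complex.I * (t : ℂ)) h1 h2
  -- pointwise bound of the derivative
  have hbound : ∀ t ∈ Set.Ioi (0 : ℝ),
      ‖φ' t‖ ≤ C₀ * Real.exp (-c * τ₀.im) * (t ^ n * Real.exp (-c * t)) := by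
    intro t ht
    have ht0 : (0 : ℝ) ≤ t := le_of_lt ht
    have hFb : ‖F (p t)‖ ≤ C₀ * ‖Real.exp (-c * (p t).im)‖ :=
      hA (p t) (by rw [hp_im t ht0]; linarith)
    rw [Real.norm_eq_abs, abs_of_pos (Real.exp_pos _), hp_im t ht0] at hFb
    have hexp : Real.exp (-c * (τ₀.im + t)) = Real.exp (-c * τ₀.im) * Real.exp (-c * t) := by
      rw [← Real.exp_add]; congr 1; ring
    have hnorm : ‖φ' t‖ = ‖F (p t)‖ * t ^ n := by
      simp [φ', abs_of_nonneg ht0]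
    rw [hexp] at hFb
    rw [hnorm]
    calc ‖F (p t)‖ * t ^ n ≤ (C₀ * (Real.exp (-c * τ₀.im) * Real.exp (-c * t))) * t ^ n :=
          mul_le_mul_of_nonneg_right hFb (pow_nonneg ht0 n)
      _ = C₀ * Real.exp (-c * τ₀.im) * (t ^ n * Real.exp (-c * t)) := by ring
  have hgint : IntegrableOn
      (fun t : ℝ ↦ C₀ * Real.exp (-c * τ₀.im) * (t ^ n * Real.exp (-c * t))) (Set.Ioi 0) :=
    (corebound_integrableOn c hc n).const_mul _
  have hae : ∀ᵐ t ∂(volume.restrict (Set.Ioi (0 : ℝ))),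
      ‖φ' t‖ ≤ C₀ * Real.exp (-c * τ₀.im) * (t ^ n * Real.exp (-c * t)) :=
    (ae_restrict_iff' measurableSet_Ioi).mpr (Eventually.of_forall hbound)
  have hφ'int : IntegrableOn φ' (Set.Ioi 0) :=
    Integrable.mono' hgint hφ'_cont.aestronglyMeasurable hae
  have hint := integral_Ioi_of_hasDerivAt_of_tendsto hcont hderiv hφ'int hlim
  have heq : H τ₀ - ℓ = -∫ t in Set.Ioi (0 : ℝ), φ' t := by
    rw [hint]; simp
  rw [heq, norm_neg]
  calc ‖∫ t in Set.Ioi (0 : ℝ), φ' t‖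
      ≤ ∫ t in Set.Ioi (0 : ℝ), C₀ * Real.exp (-c * τ₀.im) * (t ^ n * Real.exp (-c * t)) :=
        norm_integral_le_of_norm_le hgint hae
    _ = C₀ * Real.exp (-c * τ₀.im) * J := by rw [integral_const_mul]
    _ = C₀ * J * Real.exp (-c * τ₀.im) := by ring

end Fermat.Agent.S22
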