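import Fermat.Agent.S22.Defs

/-!
# S22 : `core_lim`

If `F` decays exponentially at `i∞` and `H` is a primitive of `F · Q` on the upper half plane
(`Q` a polynomial), then `H` has a limit along every vertical ray, and this limit does not depend
on the ray.
-/

set_option autoImplicit false

open UpperHalfPlane Complex Filter Topology Polynomial
open scoped MatrixGroups ModularForm Manifold

namespace Fermat.Agent.S22

/-- A polynomial is bounded by a multiple of `(1 + ‖z‖) ^ natDegree`. -/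
theorem corelim_poly_bound (Q : ℂ[X]) :
    ∃ K : ℝ, 0 ≤ K ∧ ∀ z : ℂ, ‖Q.eval z‖ ≤ K * (1 + ‖z‖) ^ Q.natDegree := by
  refine ⟨∑ i ∈ Finset.range (Q.natDegree + 1), ‖Q.coeff i‖,
    Finset.sum_nonneg fun _ _ ↦ norm_nonneg _, fun z ↦ ?_⟩
  rw [Polynomial.eval_eq_sum_range, Finset.sum_mul]
  refine (norm_sum_le _ _).trans (Finset.sum_le_sum fun i hi ↦ ?_)
  rw [norm_mul, norm_pow]
  have h1 : (1 : ℝ) ≤ 1 + ‖z‖ := by linarith [norm_nonneg z]
  have hi' : i ≤ Q.natDegree := Nat.lt_succ_iff.mp (Finset.mem_range.mp hi)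
  have h2 : ‖z‖ ^ i ≤ (1 + ‖z‖) ^ Q.natDegree :=
    calc ‖z‖ ^ i ≤ (1 + ‖z‖) ^ i := pow_le_pow_left₀ (norm_nonneg z) (by linarith) i
      _ ≤ (1 + ‖z‖) ^ Q.natDegree := pow_le_pow_right₀ h1 hi'
  exact mul_le_mul_of_nonneg_left h2 (norm_nonneg _)

/-- Powers are dominated by exponentials, with an explicit constant. -/
theorem corelim_pow_le_exp {c : ℝ} (hc : 0 < c) (n : ℕ) {u : ℝ} (hu : 0 ≤ u) :
    u ^ n ≤ (2 / c) ^ n * n.factorial * Real.exp (c / 2 * u) := by
  have h := Real.pow_div_factorial_le_exp (x := c / 2 * u) (by positivity) n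
  have hfac : (0 : ℝ) < n.factorial := by exact_mod_cast Nat.factorial_pos n
  rw [div_le_iff₀ hfac] at h
  have h2 : u ^ n = (2 / c) ^ n * (c / 2 * u) ^ n := by
    rw [← mul_pow]
    congr 1
    field_simp
  rw [h2]
  calc (2 / c) ^ n * (c / 2 * u) ^ n
      ≤ (2 / c) ^ n * (Real.exp (c / 2 * u) * n.factorial) :=
        mul_le_mul_of_nonneg_left h (by positivity)
    _ = (2 / c) ^ n * n.factorial * Real.exp (c / 2 * u) := by ring

/-- The pointwise bound on the integrand: exponential decay in `im τ`, locally uniformly in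
`re τ`. -/
theorem corelim_bound {F : ℍ → ℂ} {c : ℝ} (hc : 0 < c)
    (hdec : F =O[atImInfty] fun τ ↦ Real.exp (-c * τ.im)) (Q : ℂ[X]) :
    ∃ C₁ A : ℝ, 0 ≤ C₁ ∧ 0 < A ∧ ∀ τ : ℍ, A ≤ τ.im → ∀ R : ℝ, |τ.re| ≤ R →
      ‖F τ * Q.eval (τ : ℂ)‖ ≤ C₁ * Real.exp (c / 2 * R) * Real.exp (-(c / 2) * τ.im) := by
  obtain ⟨K, hK0, hK⟩ := corelim_poly_bound Q
  obtain ⟨C, hC0, hC⟩ := hdec.exists_nonneg
  obtain ⟨A₀, hA₀⟩ := (atImInfty_mem _).mp hC.bound
  set n := Q.natDegree with hn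
  refine ⟨C * K * ((2 / c) ^ n * n.factorial) * Real.exp (c / 2), max A₀ 1, by positivity,
    lt_of_lt_of_le one_pos (le_max_right _ _), fun τ hτ R hR ↦ ?_⟩
  have hF : ‖F τ‖ ≤ C * Real.exp (-c * τ.im) := by
    have := hA₀ τ ((le_max_left _ _).trans hτ)
    simpa [Real.norm_eq_abs, abs_of_pos (Real.exp_pos _)] using this
  have hy : 0 < τ.im := τ.im_pos
  have hR0 : 0 ≤ R := (abs_nonneg _).trans hR
  have hnorm : ‖(τ : ℂ)‖ ≤ R + τ.im := by
    refine (Complex.norm_le_abs_re_add_abs_im _).trans ?_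
    have h1 : |(τ : ℂ).re| ≤ R := hR
    have h2 : |(τ : ℂ).im| = τ.im := abs_of_pos hy
    linarith
  have hQ : ‖Q.eval (τ : ℂ)‖ ≤
      K * ((2 / c) ^ n * n.factorial * Real.exp (c / 2 * (1 + R + τ.im))) := by
    refine (hK _).trans (mul_le_mul_of_nonneg_left ?_ hK0)
    have h3 : (1 + ‖(τ : ℂ)‖) ^ n ≤ (1 + R + τ.im) ^ n :=
      pow_le_pow_left₀ (by positivity) (by linarith) n
    exact h3.trans (corelim_pow_le_exp hc n (by positivity))
  rw [norm_mul]
  calc ‖F τ‖ * ‖Q.eval (τ : ℂ)‖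
      ≤ (C * Real.exp (-c * τ.im)) *
          (K * ((2 / c) ^ n * n.factorial * Real.exp (c / 2 * (1 + R + τ.im)))) :=
        mul_le_mul hF hQ (norm_nonneg _) (by positivity)
    _ = C * K * ((2 / c) ^ n * n.factorial) * Real.exp (c / 2) * Real.exp (c / 2 * R) *
          Real.exp (-(c / 2) * τ.im) := by
        have e : Real.exp (-c * τ.im) * Real.exp (c / 2 * (1 + R + τ.im)) =
            Real.exp (c / 2) * Real.exp (c / 2 * R) * Real.exp (-(c / 2) * τ.im) := by
          rw [← Real.exp_add, ← Real.exp_add, ← Real.exp_add]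
          congr 1
          ring
        calc (C * Real.exp (-c * τ.im)) *
              (K * ((2 / c) ^ n * n.factorial * Real.exp (c / 2 * (1 + R + τ.im))))
            = C * K * ((2 / c) ^ n * n.factorial) *
                (Real.exp (-c * τ.im) * Real.exp (c / 2 * (1 + R + τ.im))) := by ring
          _ = _ := by rw [e]; ring

/-- Derivative of `y ↦ H (x + i y)` at a point of the upper half plane. -/
theorem corelim_hasDerivAt_vertical {h : ℍ → ℂ} {H : ℂ → ℂ} (hH : IsPrim H h) (x : ℝ) {y : ℝ}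
    (hy : 0 < y) :
    HasDerivAt (fun t : ℝ ↦ H (x + Complex.I * t))
      (Complex.I * h ⟨x + Complex.I * y, by simpa using hy⟩) y := by
  have h1 : HasDerivAt (fun t : ℝ ↦ (x : ℂ) + Complex.I * (t : ℂ)) Complex.I y := by
    simpa using ((Complex.ofRealCLM.hasDerivAt (x := y)).const_mul Complex.I).const_add (x : ℂ)
  have h2 := hH ⟨x + Complex.I * y, by simpa using hy⟩
  have h3 := HasDerivAt.scomp y h2 h1
  simpa [Function.comp_def, smul_eq_mul] using h3

/-- Existence of the limit along a vertical ray. -/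
theorem corelim_vertical {F : ℍ → ℂ} {c : ℝ} (hc : 0 < c)
    (hdec : F =O[atImInfty] fun τ ↦ Real.exp (-c * τ.im)) (Q : ℂ[X]) {H : ℂ → ℂ}
    (hH : IsPrim H (fun τ ↦ F τ * Q.eval (τ : ℂ))) (x : ℝ) :
    ∃ ℓ : ℂ, Tendsto (fun y : ℝ ↦ H (x + Complex.I * y)) atTop (𝓝 ℓ) := by
  obtain ⟨C₁, A, hC₁, hA, hb⟩ := corelim_bound hc hdec Q
  set φ : ℝ → ℂ := fun y : ℝ ↦ H (x + Complex.I * y) with hφ
  have hder : ∀ y ∈ Set.Ioi A, HasDerivAt φ (deriv φ y) y := by
    intro y hy
    have hy0 : 0 < y := hA.trans hy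
    exact (corelim_hasDerivAt_vertical hH x hy0).differentiableAt.hasDerivAt
  have hbound : ∀ y ∈ Set.Ioi A,
      ‖deriv φ y‖ ≤ C₁ * Real.exp (c / 2 * |x|) * Real.exp (-(c / 2) * y) := by
    intro y hy
    have hy0 : 0 < y := hA.trans hy
    rw [(corelim_hasDerivAt_vertical hH x hy0).deriv, norm_mul, Complex.norm_I, one_mul]
    have := hb ⟨x + Complex.I * y, by simpa using hy0⟩ (by simpa [UpperHalfPlane.im] using hy.le)
      |x| (by simp [UpperHalfPlane.re])
    simpa [UpperHalfPlane.im] using this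
  have hint : MeasureTheory.IntegrableOn (deriv φ) (Set.Ioi A) := by
    have hg : MeasureTheory.IntegrableOn
        (fun y : ℝ ↦ C₁ * Real.exp (c / 2 * |x|) * Real.exp (-(c / 2) * y)) (Set.Ioi A) :=
      (exp_neg_integrableOn_Ioi A (half_pos hc)).const_mul _
    refine MeasureTheory.Integrable.mono' hg (measurable_deriv φ).aestronglyMeasurable ?_
    exact MeasureTheory.ae_restrict_of_forall_mem measurableSet_Ioi hbound
  exact ⟨_, MeasureTheory.tendsto_limUnder_of_hasDerivAt_of_integrableOn_Ioi hder hint⟩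

/-- The difference of `H` along two vertical rays tends to zero. -/
theorem corelim_horizontal {F : ℍ → ℂ} {c : ℝ} (hc : 0 < c)
    (hdec : F =O[atImInfty] fun τ ↦ Real.exp (-c * τ.im)) (Q : ℂ[X]) {H : ℂ → ℂ}
    (hH : IsPrim H (fun τ ↦ F τ * Q.eval (τ : ℂ))) (x₀ x₁ : ℝ) :
    Tendsto (fun y : ℝ ↦ H (x₁ + Complex.I * y) - H (x₀ + Complex.I * y)) atTop (𝓝 0) := by
  obtain ⟨C₁, A, hC₁, hA, hb⟩ := corelim_bound hc hdec Q
  set R : ℝ := max |x₀| |x₁| with hR
  have hlim : Tendsto (fun y : ℝ ↦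
      C₁ * Real.exp (c / 2 * R) * Real.exp (-(c / 2) * y) * ‖((x₁ : ℂ) - x₀)‖) atTop (𝓝 0) := by
    have h1 : Tendsto (fun y : ℝ ↦ Real.exp (-(c / 2) * y)) atTop (𝓝 0) :=
      Real.tendsto_exp_atBot.comp
        (tendsto_id.const_mul_atTop_of_neg (by linarith : -(c / 2) < 0))
    simpa using (h1.const_mul (C₁ * Real.exp (c / 2 * R))).mul_const ‖((x₁ : ℂ) - x₀)‖
  refine squeeze_zero_norm' ?_ hlim
  filter_upwards [eventually_ge_atTop A] with y hy
  have hy0 : 0 < y := hA.trans_le hy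
  set s : Set ℂ := {z : ℂ | z.im = y ∧ |z.re| ≤ R} with hs
  have hconv : Convex ℝ s := by
    intro z hz w hw a b ha hb hab
    refine ⟨?_, ?_⟩
    · have : (a • z + b • w).im = a * z.im + b * w.im := by simp
      rw [this, hz.1, hw.1, ← add_mul, hab, one_mul]
    · have : (a • z + b • w).re = a * z.re + b * w.re := by simp
      rw [this]
      calc |a * z.re + b * w.re| ≤ |a * z.re| + |b * w.re| := abs_add_le _ _
        _ = a * |z.re| + b * |w.re| := by rw [abs_mul, abs_mul, abs_of_nonneg ha, abs_of_nonneg hb]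
        _ ≤ a * R + b * R := by
            have := mul_le_mul_of_nonneg_left hz.2 ha
            have := mul_le_mul_of_nonneg_left hw.2 hb
            linarith
        _ = R := by rw [← add_mul, hab, one_mul]
  have hd : ∀ z ∈ s, ∃ τ : ℍ, (τ : ℂ) = z ∧ HasDerivAt H (F τ * Q.eval z) z := by
    intro z hz
    have hz0 : 0 < z.im := by rw [hz.1]; exact hy0
    exact ⟨⟨z, hz0⟩, rfl, hH ⟨z, hz0⟩⟩
  have hbd : ∀ z ∈ s, ‖deriv H z‖ ≤ C₁ * Real.exp (c / 2 * R) * Real.exp (-(c / 2) * y) := by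
    intro z hz
    obtain ⟨τ, hτ, hder⟩ := hd z hz
    rw [hder.deriv, ← hτ]
    have him : τ.im = y := by
      have : (τ : ℂ).im = y := by rw [hτ]; exact hz.1
      simpa using this
    have hre : |τ.re| ≤ R := by
      have : |(τ : ℂ).re| ≤ R := by rw [hτ]; exact hz.2
      simpa using this
    have := hb τ (by rw [him]; exact hy) R hre
    rwa [him] at this
  have hx₀ : ((x₀ : ℂ) + Complex.I * y) ∈ s := by
    refine ⟨by simp, ?_⟩
    have : ((x₀ : ℂ) + Complex.I * y).re = x₀ := by simp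
    rw [this]
    exact le_max_left _ _
  have hx₁ : ((x₁ : ℂ) + Complex.I * y) ∈ s := by
    refine ⟨by simp, ?_⟩
    have : ((x₁ : ℂ) + Complex.I * y).re = x₁ := by simp
    rw [this]
    exact le_max_right _ _
  have hmv := hconv.norm_image_sub_le_of_norm_deriv_le (𝕜 := ℂ) (f := H)
    (fun z hz ↦ (hd z hz).choose_spec.2.differentiableAt) hbd hx₀ hx₁
  have e : ((x₁ : ℂ) + Complex.I * y) - ((x₀ : ℂ) + Complex.I * y) = (x₁ : ℂ) - x₀ := by ring
  rwa [e] at hmv

set_option linter.unusedVariables false in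
/-- **core_lim**: the limit of a primitive of an exponentially decaying integrand along vertical
rays exists and is independent of the ray (and of the speed). -/
theorem core_lim {F : ℍ → ℂ} (hF : Continuous F) {c : ℝ} (hc : 0 < c)
    (hdec : F =O[atImInfty] fun τ ↦ Real.exp (-c * τ.im)) (Q : ℂ[X]) {H : ℂ → ℂ}
    (hH : IsPrim H (fun τ ↦ F τ * Q.eval (τ : ℂ))) :
    ∃ ℓ : ℂ, ∀ x₀ s : ℝ, 0 < s →
      Tendsto (fun t : ℝ ↦ H (x₀ + Complex.I * (s * t))) atTop (𝓝 ℓ) := by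
  obtain ⟨ℓ, hℓ⟩ := corelim_vertical hc hdec Q hH 0
  refine ⟨ℓ, fun x₀ s hs ↦ ?_⟩
  have h1 : Tendsto (fun y : ℝ ↦ H (x₀ + Complex.I * y)) atTop (𝓝 ℓ) := by
    have h2 := (corelim_horizontal hc hdec Q hH 0 x₀).add hℓ
    simpa using h2
  have h3 : Tendsto (fun t : ℝ ↦ s * t) atTop atTop := tendsto_id.const_mul_atTop hs
  have h4 := h1.comp h3
  refine h4.congr fun t ↦ ?_
  simp

end Fermat.Agent.S22
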