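import Fermat.Agent.S22.Defs

/-!
# S22 : exponential decay of `f ∣[k] g` at `i∞` for a cusp form `f` and `g ∈ SL(2, ℤ)`
-/

set_option autoImplicit false

open UpperHalfPlane Complex Filter Topology Matrix.SpecialLinearGroup
open scoped MatrixGroups ModularForm Manifold

namespace Fermat.Agent.S22

open ConjAct Pointwise in
theorem exp_decay_slash {Γ : Subgroup (GL (Fin 2) ℝ)} [Γ.IsArithmetic] {k : ℤ} (f : CuspForm Γ k)
    (g : SL(2, ℤ)) :
    ∃ c > 0, (⇑f ∣[k] g) =O[atImInfty] fun τ ↦ Real.exp (-c * τ.im) := by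
  have : ((toConjAct (g : GL (Fin 2) ℝ)⁻¹) • Γ).IsArithmetic := by
    simpa [(show Rat.castHom ℝ = algebraMap ℚ ℝ by rfl), map_inv, map_mapGL]
      using! Subgroup.IsArithmetic.conj Γ (mapGL ℚ g)⁻¹
  have h := CuspFormClass.exp_decay_atImInfty' (CuspForm.translate f g)
  rwa [CuspForm.coe_translate] at h

end Fermat.Agent.S22
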