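import Mathlib
import Fermat.Prelude.Def_CuspForm_HeckeAlgebra

/-!
# S22 : shared definitions (modular symbols via primitives)

All declarations live in `Fermat.Agent.S22`.
-/

set_option autoImplicit false

open UpperHalfPlane Complex Filter Topology Polynomial
open scoped MatrixGroups ModularForm Manifold

namespace Fermat.Agent.S22

/-- `H` is a primitive of `h` on the upper half plane. -/
def IsPrim (H : ℂ → ℂ) (h : ℍ → ℂ) : Prop := ∀ τ : ℍ, HasDerivAt H (h τ) (τ : ℂ)

/-- Moebius map on `ℂ` (no conjugation; meant for positive determinant). -/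
noncomputable def moeb (g : GL (Fin 2) ℝ) (z : ℂ) : ℂ := num g z / denom g z

/-- the integrand `f(w) Q(w)`. -/
noncomputable def integrand (f : ℍ → ℂ) (Q : ℂ[X]) : ℍ → ℂ := fun τ ↦ f τ * Q.eval (τ : ℂ)

/-- The limit of `H` along the geodesic `t ↦ g • (I t)` (value of `H` at the cusp `g ∞`). -/
noncomputable def cuspLim (H : ℂ → ℂ) (g : SL(2, ℤ)) : ℂ :=
  limUnder atTop (fun t : ℝ ↦ H ((g • ofComplex (Complex.I * t) : ℍ) : ℂ))

/-- The weight `n` (right) action of a matrix `[a b; c d]` on polynomials of degree `≤ n`: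
`(Q | g)(X) = (cX+d)^n Q((aX+b)/(cX+d))`. -/
noncomputable def polyAct {R : Type*} [CommRing R] (n : ℕ) (a b c d : R) (Q : R[X]) : R[X] :=
  ∑ j ∈ Finset.range (n + 1), C (Q.coeff j) * (C a * X + C b) ^ j * (C c * X + C d) ^ (n - j)

/-- The modular symbol `∫_{g∞}^{g'∞} f(w) Q(w) dw`, defined through primitives. -/
noncomputable def symb (f : ℍ → ℂ) (Q : ℂ[X]) (g g' : SL(2, ℤ)) : ℂ :=
  open Classical in
  if h : ∃ H : ℂ → ℂ, IsPrim H (integrand f Q) then cuspLim h.choose g' - cuspLim h.choose g else 0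

end Fermat.Agent.S22
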