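import Mathlib
import Fermat.Agent.S22.Defs

/-!
# S22 : primitives on the upper half plane (leaf module `Prim`)

* `exists_isPrim` : a holomorphic function on the upper half plane has a primitive.
* `IsPrim.exists_eq_add_const` : two primitives differ by a constant.
* `moeb_coe`, `IsPrim.comp_moeb` : change of variables under a Moebius map of positive determinant.
-/

set_option autoImplicit false

open UpperHalfPlane Complex Filter Topology Polynomial
open scoped MatrixGroups ModularForm Manifold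

namespace Fermat.Agent.S22

/-! ### auxiliary: exhaustion of the upper half plane by balls -/

/-- The ball of centre `(n+1) i` and radius `n+1`. -/
def prim_ball (n : ℕ) : Set ℂ := Metric.ball (((n : ℝ) + 1 : ℝ) * Complex.I) ((n : ℝ) + 1)

theorem prim_isOpen_ball (n : ℕ) : IsOpen (prim_ball n) := Metric.isOpen_ball

theorem prim_convex_ball (n : ℕ) : Convex ℝ (prim_ball n) := convex_ball _ _

theorem prim_mem_ball_iff (n : ℕ) (z : ℂ) :
    z ∈ prim_ball n ↔ z.re ^ 2 + z.im ^ 2 < 2 * z.im * ((n : ℝ) + 1) := by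
  have hn : (0 : ℝ) < (n : ℝ) + 1 := by positivity
  rw [prim_ball, Metric.mem_ball, Complex.dist_eq, ← sq_lt_sq₀ (norm_nonneg _) hn.le,
    Complex.sq_norm, Complex.normSq_apply]
  simp only [Complex.sub_re, Complex.sub_im, Complex.mul_re, Complex.mul_im, Complex.ofReal_re,
    Complex.ofReal_im, Complex.I_re, Complex.I_im, mul_zero, mul_one, sub_zero]
  constructor <;> intro h <;> nlinarith

theorem prim_ball_subset_upper (n : ℕ) : prim_ball n ⊆ {z : ℂ | 0 < z.im} := by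
  intro z hz
  rw [prim_mem_ball_iff] at hz
  have hn : (0 : ℝ) < (n : ℝ) + 1 := by positivity
  show 0 < z.im
  by_contra hneg
  have h0 : z.im ≤ 0 := not_lt.mp hneg
  nlinarith [sq_nonneg z.re, sq_nonneg z.im, mul_nonneg (neg_nonneg.mpr h0) hn.le]

theorem prim_I_mem_ball (n : ℕ) : Complex.I ∈ prim_ball n := by
  rw [prim_mem_ball_iff]
  have hn : (0 : ℝ) ≤ (n : ℝ) := Nat.cast_nonneg n
  simp only [Complex.I_re, Complex.I_im]
  nlinarith

theorem prim_ball_mono {m n : ℕ} (hmn : m ≤ n) : prim_ball m ⊆ prim_ball n := by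
  intro z hz
  have hpos := prim_ball_subset_upper m hz
  rw [prim_mem_ball_iff] at hz ⊢
  have hmn' : (m : ℝ) ≤ (n : ℝ) := by exact_mod_cast hmn
  have hpos' : 0 < z.im := hpos
  nlinarith [mul_le_mul_of_nonneg_left hmn' hpos'.le]

/-- An explicit index of a ball containing `z`. -/
noncomputable def prim_idx (z : ℂ) : ℕ := ⌈(z.re ^ 2 + z.im ^ 2) / (2 * z.im)⌉₊

theorem prim_mem_ball_idx {z : ℂ} (hz : 0 < z.im) : z ∈ prim_ball (prim_idx z) := by
  rw [prim_mem_ball_iff]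
  have h1 : (z.re ^ 2 + z.im ^ 2) / (2 * z.im) ≤ (prim_idx z : ℝ) := Nat.le_ceil _
  have h2 : (z.re ^ 2 + z.im ^ 2) / (2 * z.im) < (prim_idx z : ℝ) + 1 := by linarith
  rw [div_lt_iff₀ (by positivity)] at h2
  linarith

/-! ### existence of primitives -/

theorem exists_isPrim {h : ℍ → ℂ} (hh : MDiff h) : ∃ H : ℂ → ℂ, IsPrim H h := by
  have hf : DifferentiableOn ℂ (h ∘ ofComplex) {z : ℂ | 0 < z.im} :=
    UpperHalfPlane.mdifferentiable_iff.mp hh
  -- primitives on each ball, normalised at `I`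
  have hex : ∀ n : ℕ, ∃ G : ℂ → ℂ, G Complex.I = 0 ∧
      ∀ z ∈ prim_ball n, HasDerivAt G ((h ∘ ofComplex) z) z := fun n ↦
    ((hf.mono (prim_ball_subset_upper n)).isExactOn_ball).with_val_at Complex.I 0
  choose G hGI hG using hex
  -- compatibility
  have hcompat : ∀ m n : ℕ, m ≤ n → Set.EqOn (G m) (G n) (prim_ball m) := by
    intro m n hmn
    have hdm : DifferentiableOn ℂ (G m) (prim_ball m) := fun z hz ↦
      (hG m z hz).differentiableAt.differentiableWithinAt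
    have hdn : DifferentiableOn ℂ (G n) (prim_ball m) := fun z hz ↦
      (hG n z (prim_ball_mono hmn hz)).differentiableAt.differentiableWithinAt
    refine (prim_isOpen_ball m).eqOn_of_deriv_eq (prim_convex_ball m).isPreconnected hdm hdn ?_
      (prim_I_mem_ball m) ?_
    · intro z hz
      rw [(hG m z hz).deriv, (hG n z (prim_ball_mono hmn hz)).deriv]
    · rw [hGI m, hGI n]
  refine ⟨fun z ↦ G (prim_idx z) z, fun τ ↦ ?_⟩
  have hτ : 0 < (τ : ℂ).im := τ.im_pos
  set N := prim_idx (τ : ℂ) with hN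
  have hτN : (τ : ℂ) ∈ prim_ball N := prim_mem_ball_idx hτ
  have hev : (fun z ↦ G (prim_idx z) z) =ᶠ[𝓝 (τ : ℂ)] G N := by
    filter_upwards [(prim_isOpen_ball N).mem_nhds hτN] with w hw
    have hwpos : 0 < w.im := prim_ball_subset_upper N hw
    have hw' : w ∈ prim_ball (prim_idx w) := prim_mem_ball_idx hwpos
    rcases le_total (prim_idx w) N with hle | hle
    · exact hcompat _ _ hle hw'
    · exact (hcompat _ _ hle hw).symm
  have hder : HasDerivAt (G N) ((h ∘ ofComplex) (τ : ℂ)) (τ : ℂ) := hG N _ hτN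
  have hval : (h ∘ ofComplex) (τ : ℂ) = h τ := by
    simp [Function.comp_apply, UpperHalfPlane.ofComplex_apply]
  rw [hval] at hder
  exact hder.congr_of_eventuallyEq hev

/-! ### uniqueness up to a constant -/

theorem prim_isOpen_upper : IsOpen {z : ℂ | 0 < z.im} :=
  isOpen_lt continuous_const Complex.continuous_im

theorem prim_convex_upper : Convex ℝ {z : ℂ | 0 < z.im} := by
  intro x hx y hy a b ha hb hab
  simp only [Set.mem_ofPred_eq, Complex.add_im, Complex.real_smul, Complex.mul_im,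
    Complex.ofReal_re, Complex.ofReal_im, zero_mul, add_zero] at hx hy ⊢
  rcases ha.eq_or_lt with rfl | ha'
  · have hb1 : b = 1 := by linarith
    subst hb1
    simpa using hy
  · have h1 : 0 < a * x.im := mul_pos ha' hx
    have h2 : 0 ≤ b * y.im := mul_nonneg hb hy.le
    linarith

theorem IsPrim.exists_eq_add_const {H₁ H₂ : ℂ → ℂ} {h : ℍ → ℂ} (h₁ : IsPrim H₁ h)
    (h₂ : IsPrim H₂ h) : ∃ c : ℂ, ∀ τ : ℍ, H₁ τ = H₂ τ + c := by
  have hd : ∀ z ∈ {z : ℂ | 0 < z.im}, HasDerivAt (H₁ - H₂) 0 z := by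
    intro z hz
    have e1 := h₁ ⟨z, hz⟩
    have e2 := h₂ ⟨z, hz⟩
    have e3 := e1.sub e2
    rwa [sub_self] at e3
  have hdiff : DifferentiableOn ℂ (H₁ - H₂) {z : ℂ | 0 < z.im} := fun z hz ↦
    (hd z hz).differentiableAt.differentiableWithinAt
  have hderiv : Set.EqOn (deriv (H₁ - H₂)) 0 {z : ℂ | 0 < z.im} := fun z hz ↦
    (hd z hz).deriv
  refine ⟨H₁ Complex.I - H₂ Complex.I, fun τ ↦ ?_⟩
  have hI : Complex.I ∈ {z : ℂ | 0 < z.im} := by simp
  have hτ : (τ : ℂ) ∈ {z : ℂ | 0 < z.im} := τ.im_pos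
  have key := prim_isOpen_upper.is_const_of_deriv_eq_zero prim_convex_upper.isPreconnected hdiff
    hderiv hτ hI
  simp only [Pi.sub_apply] at key
  linear_combination key

/-! ### Moebius change of variables -/

theorem moeb_coe {g : GL (Fin 2) ℝ} (hg : 0 < g.det.val) (τ : ℍ) :
    moeb g τ = ((g • τ : ℍ) : ℂ) :=
  (UpperHalfPlane.coe_smul_of_det_pos hg τ).symm

theorem prim_hasDerivAt_moeb (g : GL (Fin 2) ℝ) (τ : ℍ) :
    HasDerivAt (moeb g) ((g.det.val : ℂ) / denom g τ ^ 2) (τ : ℂ) := by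
  have hden : denom g (τ : ℂ) ≠ 0 := UpperHalfPlane.denom_ne_zero g τ
  have hnum : HasDerivAt (fun z : ℂ ↦ num g z) ((g 0 0 : ℝ) : ℂ) (τ : ℂ) := by
    simpa [UpperHalfPlane.num] using
      ((hasDerivAt_id (τ : ℂ)).const_mul ((g 0 0 : ℝ) : ℂ)).add_const ((g 0 1 : ℝ) : ℂ)
  have hdenom : HasDerivAt (fun z : ℂ ↦ denom g z) ((g 1 0 : ℝ) : ℂ) (τ : ℂ) := by
    simpa [UpperHalfPlane.denom] using
      ((hasDerivAt_id (τ : ℂ)).const_mul ((g 1 0 : ℝ) : ℂ)).add_const ((g 1 1 : ℝ) : ℂ)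
  have hdiv := hnum.div hdenom hden
  have hdet : (g.det.val : ℂ) = ((g 0 0 : ℝ) : ℂ) * ((g 1 1 : ℝ) : ℂ)
      - ((g 0 1 : ℝ) : ℂ) * ((g 1 0 : ℝ) : ℂ) := by
    rw [Matrix.GeneralLinearGroup.val_det_apply, Matrix.det_fin_two]
    push_cast
    rfl
  have heq : (((g 0 0 : ℝ) : ℂ) * denom g (τ : ℂ) - num g (τ : ℂ) * ((g 1 0 : ℝ) : ℂ))
      / denom g (τ : ℂ) ^ 2 = (g.det.val : ℂ) / denom g τ ^ 2 := by
    congr 1
    rw [hdet]
    simp only [UpperHalfPlane.num, UpperHalfPlane.denom]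
    ring
  rw [heq] at hdiv
  exact hdiv

theorem IsPrim.comp_moeb {H : ℂ → ℂ} {h : ℍ → ℂ} (hH : IsPrim H h) {g : GL (Fin 2) ℝ}
    (hg : 0 < g.det.val) :
    IsPrim (fun z ↦ H (moeb g z)) (fun τ ↦ h (g • τ) * (g.det.val / denom g τ ^ 2)) := by
  intro τ
  have h1 : HasDerivAt H (h (g • τ)) (moeb g (τ : ℂ)) := by
    rw [moeb_coe hg τ]
    exact hH (g • τ)
  exact h1.comp (τ : ℂ) (prim_hasDerivAt_moeb g τ)

end Fermat.Agent.S22
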