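import Mathlib
import Fermat.Agent.S22.Defs

/-!
# S22 : algebraic core

An algebra generated by operators whose transposes preserve a finitely generated, separating
lattice of functionals is a finite `ℤ`-module.
-/

set_option autoImplicit false

noncomputable section

namespace Fermat.Agent.S22

/-- The subalgebra of endomorphisms whose transpose preserves a lattice of functionals. -/
def alg_stabAlg {V : Type*} [AddCommGroup V] [Module ℂ V] (Λ : Submodule ℤ (Module.Dual ℂ V)) :
    Subalgebra ℤ (Module.End ℂ V) where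
  carrier := {t | ∀ l ∈ Λ, l ∘ₗ t ∈ Λ}
  mul_mem' := by
    intro a b ha hb l hl
    exact hb _ (ha l hl)
  one_mem' := by
    intro l hl
    exact hl
  add_mem' := by
    intro a b ha hb l hl
    have := Λ.add_mem (ha l hl) (hb l hl)
    simpa [LinearMap.comp_add] using this
  zero_mem' := by
    intro l hl
    simp
  algebraMap_mem' := by
    intro n l hl
    have h : l ∘ₗ (algebraMap ℤ (Module.End ℂ V) n) = n • l := by
      ext v
      simp
    rw [h]
    exact Λ.smul_mem n hl

/-- The action of the stabiliser algebra on the lattice, as a `ℤ`-linear map. -/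
def alg_stabAct {V : Type*} [AddCommGroup V] [Module ℂ V] (Λ : Submodule ℤ (Module.Dual ℂ V)) :
    alg_stabAlg Λ →ₗ[ℤ] (Λ →ₗ[ℤ] Λ) where
  toFun t :=
    { toFun := fun l => ⟨(l : Module.Dual ℂ V) ∘ₗ (t : Module.End ℂ V), t.2 _ l.2⟩
      map_add' := by
        intro l l'
        apply Subtype.ext
        simp [LinearMap.add_comp]
      map_smul' := by
        intro n l
        apply Subtype.ext
        ext v
        simp }
  map_add' := by
    intro t t'
    ext l v
    simp [LinearMap.comp_add]
  map_smul' := by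
    intro n t
    ext l v
    simp

theorem alg_stabAct_injective {V : Type*} [AddCommGroup V] [Module ℂ V]
    (Λ : Submodule ℤ (Module.Dual ℂ V)) (hsep : ∀ v : V, (∀ φ ∈ Λ, φ v = 0) → v = 0) :
    Function.Injective (alg_stabAct Λ) := by
  rw [injective_iff_map_eq_zero]
  intro t ht
  apply Subtype.ext
  ext v
  apply hsep
  intro l hl
  have := congrArg (fun φ : (Λ →ₗ[ℤ] Λ) => ((φ ⟨l, hl⟩ : Λ) : Module.Dual ℂ V) v) ht
  simpa [alg_stabAct] using this

/-- Abstract core: an algebra generated by operators preserving a finitely generated separating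
lattice of functionals is a finite `ℤ`-module. -/
theorem finite_adjoin_of_lattice {V : Type*} [AddCommGroup V] [Module ℂ V]
    (gens : Set (Module.End ℂ V)) (Λ : Submodule ℤ (Module.Dual ℂ V)) (hfg : Λ.FG)
    (hsep : ∀ v : V, (∀ φ ∈ Λ, φ v = 0) → v = 0)
    (hstab : ∀ T ∈ gens, ∀ φ ∈ Λ, φ ∘ₗ T ∈ Λ) :
    Module.Finite ℤ (Algebra.adjoin ℤ gens) := by
  have : Module.Finite ℤ Λ := Module.Finite.iff_fg.mpr hfg
  have : IsAddTorsionFree (Module.Dual ℂ V) := .of_isTorsionFree ℂ _
  have : Module.Free ℤ Λ := Module.free_of_finite_type_torsion_free'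
  have hle : Algebra.adjoin ℤ gens ≤ alg_stabAlg Λ := Algebra.adjoin_le hstab
  let ι : Algebra.adjoin ℤ gens →ₗ[ℤ] (Λ →ₗ[ℤ] Λ) :=
    (alg_stabAct Λ) ∘ₗ (Subalgebra.inclusion hle).toLinearMap
  have hι : Function.Injective ι :=
    (alg_stabAct_injective Λ hsep).comp (Subalgebra.inclusion_injective hle)
  exact Module.Finite.of_injective ι hι

end Fermat.Agent.S22

end
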