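import Fermat.Agent.S22.Symb

/-!
# S22 : the lattice of modular symbols is finitely generated (module `FG`)

`lattice_fg` : `lattice Γ n` is spanned by the finitely many functionals
`symbL Γ n (X ^ j) r (r * S)`, `j ≤ n`, `r` in a finite set of representatives of `Γ \ SL(2, ℤ)`.
-/

set_option autoImplicit false

open UpperHalfPlane Complex Filter Topology Polynomial
open scoped MatrixGroups ModularForm Manifold

namespace Fermat.Agent.S22

variable {Γ : Subgroup SL(2, ℤ)} [Γ.FiniteIndex] {n : ℕ}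

/-! ### elementary identities for `symb` -/

theorem fg_symb_self (f : CuspForm Γ ((n : ℤ) + 2)) {Q : ℂ[X]} (hQ : Q.natDegree ≤ n)
    (g : SL(2, ℤ)) : symb f Q g g = 0 := by
  have h := symb_trans f hQ g g g
  linear_combination h

theorem fg_symb_symm (f : CuspForm Γ ((n : ℤ) + 2)) {Q : ℂ[X]} (hQ : Q.natDegree ≤ n)
    (g g' : SL(2, ℤ)) : symb f Q g' g = - symb f Q g g' := by
  have h := symb_trans f hQ g g' g
  rw [fg_symb_self f hQ g] at h
  linear_combination h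

theorem fg_symb_zero_poly (f : CuspForm Γ ((n : ℤ) + 2)) (g g' : SL(2, ℤ)) :
    symb f (0 : ℂ[X]) g g' = 0 := by
  have h := symb_smul_poly f 0 (Q := (0 : ℂ[X])) (by simp) g g'
  simpa using h

theorem fg_symb_sum (f : CuspForm Γ ((n : ℤ) + 2)) {ι : Type*} (s : Finset ι) (Q : ι → ℂ[X])
    (hQ : ∀ i ∈ s, (Q i).natDegree ≤ n) (g g' : SL(2, ℤ)) :
    symb f (∑ i ∈ s, Q i) g g' = ∑ i ∈ s, symb f (Q i) g g' := by
  classical
  induction s using Finset.induction_on with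
  | empty => simpa using fg_symb_zero_poly f g g'
  | insert a s ha ih =>
    rw [Finset.sum_insert ha, Finset.sum_insert ha]
    have h1 : (Q a).natDegree ≤ n := hQ a (Finset.mem_insert_self a s)
    have h2 : ∀ i ∈ s, (Q i).natDegree ≤ n := fun i hi ↦ hQ i (Finset.mem_insert_of_mem hi)
    have h3 : (∑ i ∈ s, Q i).natDegree ≤ n := natDegree_sum_le_of_forall_le s Q h2
    rw [symb_add_poly f h1 h3, ih h2]

/-! ### the same identities for the functionals `symbL` -/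

theorem fg_symbL_self {P : ℤ[X]} (hP : P.natDegree ≤ n) (g : SL(2, ℤ)) :
    symbL Γ n P g g = 0 := by
  ext f
  rw [symbL_apply hP, fg_symb_self f (natDegree_map_le.trans hP)]
  rfl

theorem fg_symbL_trans {P : ℤ[X]} (hP : P.natDegree ≤ n) (g g' g'' : SL(2, ℤ)) :
    symbL Γ n P g g' + symbL Γ n P g' g'' = symbL Γ n P g g'' := by
  ext f
  rw [LinearMap.add_apply, symbL_apply hP, symbL_apply hP, symbL_apply hP,
    symb_trans f (natDegree_map_le.trans hP)]

theorem fg_symbL_symm {P : ℤ[X]} (hP : P.natDegree ≤ n) (g g' : SL(2, ℤ)) :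
    symbL Γ n P g' g = - symbL Γ n P g g' := by
  ext f
  rw [LinearMap.neg_apply, symbL_apply hP, symbL_apply hP,
    fg_symb_symm f (natDegree_map_le.trans hP)]

theorem fg_symbL_mul_T {P : ℤ[X]} (hP : P.natDegree ≤ n) (g : SL(2, ℤ)) :
    symbL Γ n P g (g * ModularGroup.T) = 0 := by
  ext f
  rw [symbL_apply hP, symb_mul_T f (natDegree_map_le.trans hP)]
  rfl

/-- `Γ`-equivariance on the level of functionals (integer polynomials). -/
theorem fg_symbL_gamma {P : ℤ[X]} (hP : P.natDegree ≤ n) {γ : SL(2, ℤ)} (hγ : γ ∈ Γ)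
    (g g' : SL(2, ℤ)) :
    symbL Γ n P (γ * g) (γ * g') =
      symbL Γ n (polyAct n (γ 0 0) (γ 0 1) (γ 1 0) (γ 1 1) P) g g' := by
  ext f
  rw [symbL_apply hP, symbL_apply (natDegree_polyAct_le _ _ _ _ _ _),
    symb_gamma f (natDegree_map_le.trans hP) hγ, polyAct_map]
  rfl

/-- Expansion of `symbL` in monomials. -/
theorem fg_symbL_expand {P : ℤ[X]} (hP : P.natDegree ≤ n) (g g' : SL(2, ℤ)) :
    symbL Γ n P g g' = ∑ j ∈ Finset.range (n + 1), P.coeff j • symbL Γ n (X ^ j) g g' := by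
  ext f
  have hXj : ∀ j ∈ Finset.range (n + 1), ((X : ℤ[X]) ^ j).natDegree ≤ n := fun j hj ↦
    (natDegree_X_pow_le j).trans (Nat.lt_succ_iff.mp (Finset.mem_range.mp hj))
  have hmapP : P.map (Int.castRingHom ℂ) =
      ∑ j ∈ Finset.range (n + 1), C ((P.coeff j : ℤ) : ℂ) * (X : ℂ[X]) ^ j := by
    conv_lhs => rw [as_sum_range' P (n + 1) (Nat.lt_succ_of_le hP)]
    rw [Polynomial.map_sum]
    refine Finset.sum_congr rfl fun j _ ↦ ?_
    rw [Polynomial.map_monomial, ← C_mul_X_pow_eq_monomial]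
    simp
  have hdeg : ∀ j ∈ Finset.range (n + 1),
      (C ((P.coeff j : ℤ) : ℂ) * (X : ℂ[X]) ^ j).natDegree ≤ n := fun j hj ↦
    (natDegree_C_mul_le _ _).trans
      ((natDegree_X_pow_le j).trans (Nat.lt_succ_iff.mp (Finset.mem_range.mp hj)))
  have hXj' : ∀ j ∈ Finset.range (n + 1), ((X : ℂ[X]) ^ j).natDegree ≤ n := fun j hj ↦
    (natDegree_X_pow_le j).trans (Nat.lt_succ_iff.mp (Finset.mem_range.mp hj))
  rw [symbL_apply hP, hmapP, fg_symb_sum f _ _ hdeg, LinearMap.sum_apply]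
  refine Finset.sum_congr rfl fun j hj ↦ ?_
  rw [symb_smul_poly f _ (hXj' j hj), LinearMap.smul_apply, symbL_apply (hXj j hj)]
  simp [zsmul_eq_mul]

/-! ### representatives -/

omit [Γ.FiniteIndex] in
theorem fg_exists_reps (Γ : Subgroup SL(2, ℤ)) [Γ.FiniteIndex] :
    ∃ R : Finset SL(2, ℤ), ∀ g : SL(2, ℤ), ∃ γ ∈ Γ, ∃ r ∈ R, g = γ * r := by
  classical
  have : Finite (SL(2, ℤ) ⧸ Γ) := Subgroup.finite_quotient_of_finiteIndex
  have : Fintype (SL(2, ℤ) ⧸ Γ) := Fintype.ofFinite _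
  refine ⟨Finset.univ.image (fun q : SL(2, ℤ) ⧸ Γ ↦ (Quotient.out q)⁻¹), fun g ↦ ?_⟩
  obtain ⟨h, hh⟩ := QuotientGroup.mk_out_eq_mul Γ g⁻¹
  refine ⟨h, h.2, (Quotient.out (QuotientGroup.mk g⁻¹ : SL(2, ℤ) ⧸ Γ))⁻¹,
    Finset.mem_image.mpr ⟨_, Finset.mem_univ _, rfl⟩, ?_⟩
  rw [hh]
  group

/-! ### the finite generating set -/

/-- The finite generating set attached to a finite set of representatives. -/
noncomputable def fg_gens (Γ : Subgroup SL(2, ℤ)) [Γ.FiniteIndex] (n : ℕ) (R : Finset SL(2, ℤ)) :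
    Set (Module.Dual ℂ (CuspForm Γ ((n : ℤ) + 2))) :=
  (fun p : ℕ × SL(2, ℤ) ↦ symbL Γ n (X ^ p.1) p.2 (p.2 * ModularGroup.S)) ''
    ((Finset.range (n + 1) ×ˢ R : Finset (ℕ × SL(2, ℤ))) : Set (ℕ × SL(2, ℤ)))

theorem fg_gens_finite (Γ : Subgroup SL(2, ℤ)) [Γ.FiniteIndex] (n : ℕ) (R : Finset SL(2, ℤ)) :
    (fg_gens Γ n R).Finite :=
  (Finset.finite_toSet _).image _

theorem fg_mem_gens {R : Finset SL(2, ℤ)} {j : ℕ} (hj : j ∈ Finset.range (n + 1))
    {r : SL(2, ℤ)} (hr : r ∈ R) :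
    symbL Γ n (X ^ j) r (r * ModularGroup.S) ∈ fg_gens Γ n R :=
  ⟨(j, r), Finset.mem_coe.mpr (Finset.mem_product.mpr ⟨hj, hr⟩), rfl⟩

/-- Step 1: the symbols `{g, g S}` lie in the span of the generators. -/
theorem fg_step_S {R : Finset SL(2, ℤ)} (hR : ∀ g : SL(2, ℤ), ∃ γ ∈ Γ, ∃ r ∈ R, g = γ * r)
    {P : ℤ[X]} (hP : P.natDegree ≤ n) (g : SL(2, ℤ)) :
    symbL Γ n P g (g * ModularGroup.S) ∈ Submodule.span ℤ (fg_gens Γ n R) := by
  obtain ⟨γ, hγ, r, hr, rfl⟩ := hR g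
  rw [mul_assoc, fg_symbL_gamma hP hγ, fg_symbL_expand (natDegree_polyAct_le _ _ _ _ _ _)]
  refine Submodule.sum_mem _ fun j hj ↦ Submodule.smul_mem _ _ (Submodule.subset_span ?_)
  exact fg_mem_gens hj hr

/-- Steps 2 and 3: all symbols `{g, g h}` lie in the span of the generators. -/
theorem fg_step_all {R : Finset SL(2, ℤ)} (hR : ∀ g : SL(2, ℤ), ∃ γ ∈ Γ, ∃ r ∈ R, g = γ * r)
    (h : SL(2, ℤ)) : ∀ (P : ℤ[X]), P.natDegree ≤ n → ∀ g : SL(2, ℤ),
      symbL Γ n P g (g * h) ∈ Submodule.span ℤ (fg_gens Γ n R) := by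
  have hmem : h ∈ Subgroup.closure ({ModularGroup.S, ModularGroup.T} : Set SL(2, ℤ)) := by
    rw [SpecialLinearGroup.SL2Z_generators]
    exact Subgroup.mem_top h
  induction hmem using Subgroup.closure_induction with
  | mem x hx =>
    intro P hP g
    rcases hx with rfl | hx
    · exact fg_step_S hR hP g
    · rw [Set.mem_singleton_iff] at hx
      subst hx
      rw [fg_symbL_mul_T hP]
      exact Submodule.zero_mem _
  | one =>
    intro P hP g
    rw [mul_one, fg_symbL_self hP]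
    exact Submodule.zero_mem _
  | mul x y _ _ hx hy =>
    intro P hP g
    rw [← fg_symbL_trans hP g (g * x) (g * (x * y))]
    refine Submodule.add_mem _ (hx P hP g) ?_
    have := hy P hP (g * x)
    rwa [mul_assoc] at this
  | inv x _ hx =>
    intro P hP g
    rw [fg_symbL_symm hP (g * x⁻¹) g]
    refine Submodule.neg_mem _ ?_
    have := hx P hP (g * x⁻¹)
    rwa [inv_mul_cancel_right] at this

theorem fg_lattice_eq {R : Finset SL(2, ℤ)} (hR : ∀ g : SL(2, ℤ), ∃ γ ∈ Γ, ∃ r ∈ R, g = γ * r) :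
    lattice Γ n = Submodule.span ℤ (fg_gens Γ n R) := by
  apply le_antisymm
  · refine Submodule.span_le.mpr ?_
    rintro φ ⟨P, g, g', hP, rfl⟩
    have := fg_step_all hR (g⁻¹ * g') P hP g
    rwa [mul_inv_cancel_left] at this
  · refine Submodule.span_le.mpr ?_
    rintro φ ⟨⟨j, r⟩, hjr, rfl⟩
    have hj : j < n + 1 := by
      have := (Finset.mem_product.mp (Finset.mem_coe.mp hjr)).1
      exact Finset.mem_range.mp this
    exact Submodule.subset_span
      ⟨X ^ j, r, r * ModularGroup.S, (natDegree_X_pow_le j).trans (Nat.lt_succ_iff.mp hj), rfl⟩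

/-! ### FG -/

theorem lattice_fg (Γ : Subgroup SL(2, ℤ)) [Γ.FiniteIndex] (n : ℕ) : (lattice Γ n).FG := by
  obtain ⟨R, hR⟩ := fg_exists_reps Γ
  rw [fg_lattice_eq hR]
  exact Submodule.fg_span (fg_gens_finite Γ n R)

end Fermat.Agent.S22
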