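import Mathlib
import Fermat.Agent.S22.Defs

/-!
# S22 : vanishing of cusp forms of non-positive weight
-/

set_option autoImplicit false

open UpperHalfPlane Complex Filter Topology
open scoped MatrixGroups ModularForm Manifold

namespace Fermat.Agent.S22

/-- Package a holomorphic function which is slash-invariant under `Γ` and zero at `i∞` after every
`SL(2, ℤ)`-translate as a modular form. -/
noncomputable def van_form {Γ : Subgroup SL(2, ℤ)} [Γ.FiniteIndex] (k : ℤ) (Φ : ℍ → ℂ)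
    (hΦ : MDiff Φ) (hinv : ∀ γ ∈ Γ, Φ ∣[k] γ = Φ)
    (hdec : ∀ g : SL(2, ℤ), IsZeroAtImInfty (Φ ∣[k] g)) :
    ModularForm (Γ : Subgroup (GL (Fin 2) ℝ)) k where
  toFun := Φ
  slash_action_eq' := by
    rintro γ ⟨γ₀, hγ₀, rfl⟩
    exact hinv γ₀ hγ₀
  holo' := hΦ
  bdd_at_cusps' := by
    intro c hc
    have hc' : IsCusp c 𝒮ℒ :=
      (Subgroup.IsArithmetic.isCusp_iff_isCusp_SL2Z (Γ : Subgroup (GL (Fin 2) ℝ))).mp hc
    rw [OnePoint.isBoundedAt_iff_forall_SL2Z hc']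
    intro γ _
    exact (hdec γ).isBoundedAtImInfty

theorem vanishing {Γ : Subgroup SL(2, ℤ)} [Γ.FiniteIndex] (n : ℕ) (Φ : ℍ → ℂ) (hΦ : MDiff Φ)
    (hinv : ∀ γ ∈ Γ, Φ ∣[-(n : ℤ)] γ = Φ)
    (hdec : ∀ g : SL(2, ℤ), IsZeroAtImInfty (Φ ∣[-(n : ℤ)] g)) : Φ = 0 := by
  rcases Nat.eq_zero_or_pos n with rfl | hn
  · simp only [Nat.cast_zero, neg_zero] at hinv hdec
    obtain ⟨c, hc⟩ := ModularForm.eq_const_of_weight_zero (van_form 0 Φ hΦ hinv hdec)
    have hc' : Φ = Function.const ℍ c := hc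
    have h1 : IsZeroAtImInfty Φ := by
      have := hdec 1
      rwa [SlashAction.slash_one] at this
    have h2 : Tendsto Φ atImInfty (𝓝 c) := by
      rw [hc']; exact tendsto_const_nhds
    have h3 : c = 0 := tendsto_nhds_unique h2 h1
    rw [hc', h3]; rfl
  · have hk : (-(n : ℤ)) < 0 := by omega
    have := ModularForm.isZero_of_neg_weight hk (van_form (-(n : ℤ)) Φ hΦ hinv hdec)
    have h2 : (⇑(van_form (-(n : ℤ)) Φ hΦ hinv hdec) : ℍ → ℂ) = 0 := by
      rw [this]; rfl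
    exact h2

end Fermat.Agent.S22
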