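import Fermat.Agent.S22.Symb
import Fermat.Agent.S22.CoreBound
import Fermat.Agent.S22.Van

/-!
# S22 : `lattice_separates`

If all modular symbols of a cusp form `f` vanish then `f = 0`
(Eichler–Shimura injectivity via the Eichler integral).
-/

set_option autoImplicit false

open UpperHalfPlane Complex Filter Topology Polynomial
open scoped MatrixGroups ModularForm Manifold

namespace Fermat.Agent.S22

variable {Γ : Subgroup SL(2, ℤ)} [Γ.FiniteIndex] {n : ℕ}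

/-- the integrand `f Q` is holomorphic -/
theorem sep_mdiff_integrand {Γ' : Subgroup (GL (Fin 2) ℝ)} {k : ℤ} (f : CuspForm Γ' k)
    (Q : ℂ[X]) : MDiff (integrand f Q) := by
  have hf : MDiff (⇑f) := CuspFormClass.holo f
  have hQ : MDiff (fun τ : ℍ => Q.eval (τ : ℂ)) := by
    rw [UpperHalfPlane.mdifferentiable_iff]
    refine (Q.differentiable.differentiableOn).congr ?_
    intro z hz
    simp [Function.comp, ofComplex_apply_of_im_pos hz]
  exact hf.mul hQ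

/-- all symbols of monomials vanish -/
theorem sep_symb_monomial (f : CuspForm Γ ((n : ℤ) + 2)) (h : ∀ φ ∈ lattice Γ n, φ f = 0)
    {j : ℕ} (hj : j ≤ n) (g g' : SL(2, ℤ)) : symb f (X ^ j : ℂ[X]) g g' = 0 := by
  have hdeg : (X ^ j : ℤ[X]).natDegree ≤ n := by
    rw [natDegree_X_pow]; exact hj
  have h1 := h (symbL Γ n (X ^ j) g g') (Submodule.subset_span ⟨X ^ j, g, g', hdeg, rfl⟩)
  rw [symbL_apply hdeg] at h1
  simpa using h1

theorem sep_symb_zero_poly (f : CuspForm Γ ((n : ℤ) + 2)) (g g' : SL(2, ℤ)) :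
    symb f (0 : ℂ[X]) g g' = 0 := by
  have h := symb_smul_poly f 0 (Q := (0 : ℂ[X])) (by simp) g g'
  simpa using h

theorem sep_symb_sum (f : CuspForm Γ ((n : ℤ) + 2)) (h : ∀ φ ∈ lattice Γ n, φ f = 0)
    (g g' : SL(2, ℤ)) (c : ℕ → ℂ) (s : Finset ℕ) (hs : ∀ j ∈ s, j ≤ n) :
    symb f (∑ j ∈ s, C (c j) * X ^ j) g g' = 0 := by
  classical
  induction s using Finset.induction_on with
  | empty => simpa using sep_symb_zero_poly f g g'
  | insert a s ha ih =>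
    have hdeg : ∀ j ∈ insert a s, (C (c j) * X ^ j : ℂ[X]).natDegree ≤ n := fun j hj =>
      (natDegree_C_mul_X_pow_le (c j) j).trans (hs j hj)
    rw [Finset.sum_insert ha, symb_add_poly f (hdeg a (Finset.mem_insert_self a s))
      (natDegree_sum_le_of_forall_le s _ fun j hj => hdeg j (Finset.mem_insert_of_mem hj)),
      ih (fun j hj => hs j (Finset.mem_insert_of_mem hj)), add_zero,
      symb_smul_poly f (c a) (by rw [natDegree_X_pow]; exact hs a (Finset.mem_insert_self a s)),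
      sep_symb_monomial f h (hs a (Finset.mem_insert_self a s)), mul_zero]

/-- all symbols vanish -/
theorem sep_symb_zero (f : CuspForm Γ ((n : ℤ) + 2)) (h : ∀ φ ∈ lattice Γ n, φ f = 0)
    {Q : ℂ[X]} (hQ : Q.natDegree ≤ n) (g g' : SL(2, ℤ)) : symb f Q g g' = 0 := by
  rw [Q.as_sum_range_C_mul_X_pow' (Nat.lt_succ_of_le hQ)]
  exact sep_symb_sum f h g g' Q.coeff _ fun j hj => Nat.lt_succ_iff.mp (Finset.mem_range.mp hj)

/-- The Eichler integral built from primitives `H j` of `f(w) w^j` normalised by constants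
`L j`:  `Φ_m(z) = ∑_j (m choose j) (-z)^(m-j) (H_j(z) - L_j)`. -/
noncomputable def sepPhi (H : ℕ → ℂ → ℂ) (L : ℕ → ℂ) (m : ℕ) (z : ℂ) : ℂ :=
  ∑ j ∈ Finset.range (m + 1), (m.choose j : ℂ) * ((-z) ^ (m - j) * (H j z - L j))

theorem sep_hasDerivAt_phi {f : ℍ → ℂ} {H : ℕ → ℂ → ℂ}
    (hH : ∀ j, IsPrim (H j) (integrand f (X ^ j))) (L : ℕ → ℂ) (m : ℕ) (τ : ℍ) :
    HasDerivAt (sepPhi H L m)
      (∑ j ∈ Finset.range (m + 1), (m.choose j : ℂ) *
        ((((m - j : ℕ) : ℂ) * (-(τ : ℂ)) ^ (m - j - 1) * (-1)) * (H j τ - L j) +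
          (-(τ : ℂ)) ^ (m - j) * (f τ * (τ : ℂ) ^ j))) (τ : ℂ) := by
  unfold sepPhi
  apply HasDerivAt.fun_sum
  intro j _
  apply HasDerivAt.const_mul
  have h1 : HasDerivAt (fun z : ℂ => (-z) ^ (m - j))
      (((m - j : ℕ) : ℂ) * (-(τ : ℂ)) ^ (m - j - 1) * (-1)) (τ : ℂ) :=
    ((hasDerivAt_id (τ : ℂ)).neg.pow (m - j))
  have h2 : HasDerivAt (fun z : ℂ => H j z - L j) (f τ * (τ : ℂ) ^ j) (τ : ℂ) := by
    have := (hH j τ).sub_const (L j)
    simpa [integrand] using this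
  exact h1.mul h2

theorem sep_alg (m : ℕ) (z w : ℂ) (Y : ℕ → ℂ) :
    ∑ j ∈ Finset.range (m + 1 + 1), ((m + 1).choose j : ℂ) *
        ((((m + 1 - j : ℕ) : ℂ) * (-z) ^ (m + 1 - j - 1) * (-1)) * Y j +
          (-z) ^ (m + 1 - j) * (w * z ^ j)) =
      -((m : ℂ) + 1) * ∑ j ∈ Finset.range (m + 1), (m.choose j : ℂ) * ((-z) ^ (m - j) * Y j) := by
  have hb : ∑ j ∈ Finset.range (m + 1 + 1), ((m + 1).choose j : ℂ) *
      ((-z) ^ (m + 1 - j) * (w * z ^ j)) = 0 := by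
    have h := add_pow z (-z) (m + 1)
    rw [add_neg_cancel, zero_pow (Nat.succ_ne_zero m)] at h
    calc ∑ j ∈ Finset.range (m + 1 + 1), ((m + 1).choose j : ℂ) *
          ((-z) ^ (m + 1 - j) * (w * z ^ j))
        = w * ∑ j ∈ Finset.range (m + 1 + 1), z ^ j * (-z) ^ (m + 1 - j) *
            ((m + 1).choose j : ℂ) := by
          rw [Finset.mul_sum]
          refine Finset.sum_congr rfl fun j _ => ?_
          ring
      _ = 0 := by rw [← h, mul_zero]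
  have ha : ∑ j ∈ Finset.range (m + 1 + 1), ((m + 1).choose j : ℂ) *
      ((((m + 1 - j : ℕ) : ℂ) * (-z) ^ (m + 1 - j - 1) * (-1)) * Y j) =
      -((m : ℂ) + 1) * ∑ j ∈ Finset.range (m + 1), (m.choose j : ℂ) * ((-z) ^ (m - j) * Y j) := by
    rw [Finset.sum_range_succ, Finset.mul_sum]
    have hlast : ((m + 1).choose (m + 1) : ℂ) *
        ((((m + 1 - (m + 1) : ℕ) : ℂ) * (-z) ^ (m + 1 - (m + 1) - 1) * (-1)) * Y (m + 1)) = 0 := by
      simp
    rw [hlast, add_zero]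
    refine Finset.sum_congr rfl fun j hj => ?_
    have hjm : j ≤ m := Nat.lt_succ_iff.mp (Finset.mem_range.mp hj)
    have hch : ((m + 1).choose j : ℂ) * ((m + 1 - j : ℕ) : ℂ) = (m.choose j : ℂ) * ((m : ℂ) + 1) := by
      have := Nat.choose_mul_succ_eq m j
      have h2 : ((m.choose j * (m + 1) : ℕ) : ℂ) = (((m + 1).choose j * (m + 1 - j) : ℕ) : ℂ) := by
        rw [this]
      rw [Nat.cast_mul, Nat.cast_mul] at h2
      rw [← h2]
      push_cast
      ring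
    have hexp : m + 1 - j - 1 = m - j := by omega
    rw [hexp]
    calc ((m + 1).choose j : ℂ) * (((m + 1 - j : ℕ) : ℂ) * (-z) ^ (m - j) * (-1) * Y j)
        = (((m + 1).choose j : ℂ) * ((m + 1 - j : ℕ) : ℂ)) * ((-z) ^ (m - j) * (-1) * Y j) := by
          ring
      _ = -((m : ℂ) + 1) * ((m.choose j : ℂ) * ((-z) ^ (m - j) * Y j)) := by
          rw [hch]; ring
  calc ∑ j ∈ Finset.range (m + 1 + 1), ((m + 1).choose j : ℂ) *
        ((((m + 1 - j : ℕ) : ℂ) * (-z) ^ (m + 1 - j - 1) * (-1)) * Y j +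
          (-z) ^ (m + 1 - j) * (w * z ^ j))
      = ∑ j ∈ Finset.range (m + 1 + 1), ((m + 1).choose j : ℂ) *
          ((((m + 1 - j : ℕ) : ℂ) * (-z) ^ (m + 1 - j - 1) * (-1)) * Y j) +
        ∑ j ∈ Finset.range (m + 1 + 1), ((m + 1).choose j : ℂ) *
          ((-z) ^ (m + 1 - j) * (w * z ^ j)) := by
        rw [← Finset.sum_add_distrib]
        refine Finset.sum_congr rfl fun j _ => ?_
        ring
    _ = _ := by rw [ha, hb, add_zero]

theorem sep_hasDerivAt_phi_succ {f : ℍ → ℂ} {H : ℕ → ℂ → ℂ}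
    (hH : ∀ j, IsPrim (H j) (integrand f (X ^ j))) (L : ℕ → ℂ) (m : ℕ) (τ : ℍ) :
    HasDerivAt (sepPhi H L (m + 1)) (-((m : ℂ) + 1) * sepPhi H L m τ) (τ : ℂ) := by
  have h := sep_hasDerivAt_phi hH L (m + 1) τ
  rw [sep_alg m (τ : ℂ) (f τ) (fun j => H j τ - L j)] at h
  exact h

/-- a primitive of `f(w)(w-u)^m` built from the `H j` -/
theorem sep_isPrim_comb {f : ℍ → ℂ} {H : ℕ → ℂ → ℂ}
    (hH : ∀ j, IsPrim (H j) (integrand f (X ^ j))) (m : ℕ) (u : ℂ) :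
    IsPrim (fun z ↦ ∑ j ∈ Finset.range (m + 1), (m.choose j : ℂ) * ((-u) ^ (m - j) * H j z))
      (integrand f ((X - C u) ^ m)) := by
  intro τ
  have h1 : HasDerivAt
      (fun z ↦ ∑ j ∈ Finset.range (m + 1), (m.choose j : ℂ) * ((-u) ^ (m - j) * H j z))
      (∑ j ∈ Finset.range (m + 1), (m.choose j : ℂ) * ((-u) ^ (m - j) * (f τ * (τ : ℂ) ^ j)))
      (τ : ℂ) := by
    apply HasDerivAt.fun_sum
    intro j _
    apply HasDerivAt.const_mul
    apply HasDerivAt.const_mul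
    simpa [integrand] using hH j τ
  have h2 : integrand f ((X - C u) ^ m) τ =
      ∑ j ∈ Finset.range (m + 1), (m.choose j : ℂ) * ((-u) ^ (m - j) * (f τ * (τ : ℂ) ^ j)) := by
    simp only [integrand, eval_pow, eval_sub, eval_X, eval_C]
    rw [sub_eq_add_neg, add_pow, Finset.mul_sum]
    refine Finset.sum_congr rfl fun j _ => ?_
    ring
  rw [h2]
  exact h1

/-- difference of two Moebius images, determinant one -/
theorem sep_moeb_sub (gG : GL (Fin 2) ℝ) (hdet : gG.det.val = 1) (τ τ₀ : ℍ) :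
    ((gG • τ : ℍ) : ℂ) - ((gG • τ₀ : ℍ) : ℂ) = ((τ : ℂ) - τ₀) / (denom gG τ * denom gG τ₀) := by
  have hpos : 0 < gG.det.val := by rw [hdet]; exact one_pos
  rw [coe_smul_of_det_pos hpos, coe_smul_of_det_pos hpos]
  have h1 := denom_ne_zero gG τ
  have h2 := denom_ne_zero gG τ₀
  have hd : ((gG 0 0 : ℝ) : ℂ) * ((gG 1 1 : ℝ) : ℂ) - ((gG 0 1 : ℝ) : ℂ) * ((gG 1 0 : ℝ) : ℂ) = 1 := by
    have h3 := hdet
    rw [Matrix.GeneralLinearGroup.val_det_apply, Matrix.det_fin_two] at h3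
    exact_mod_cast h3
  rw [div_sub_div _ _ h1 h2, div_left_inj' (mul_ne_zero h1 h2)]
  simp only [num, denom]
  linear_combination ((τ : ℂ) - τ₀) * hd

/-- reparametrisation of the limit along a vertical ray -/
theorem sep_shift (H : ℂ → ℂ) (g : SL(2, ℤ)) (τ₀ : ℍ) (ℓ : ℂ)
    (hL : Tendsto (fun t : ℝ ↦ H ((g • ofComplex (τ₀.re + Complex.I * ((1 : ℝ) * t)) : ℍ) : ℂ))
      atTop (𝓝 ℓ)) :
    Tendsto (fun t : ℝ ↦ H ((g • ofComplex ((τ₀ : ℂ) + Complex.I * t) : ℍ) : ℂ)) atTop (𝓝 ℓ) := by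
  have h1 := hL.comp (tendsto_atTop_add_const_right atTop τ₀.im tendsto_id)
  refine h1.congr fun t => ?_
  have h2 : ((τ₀.re : ℂ) + Complex.I * (((1 : ℝ) : ℂ) * ((id t + τ₀.im : ℝ) : ℂ))) =
      (τ₀ : ℂ) + Complex.I * (t : ℂ) := by
    apply Complex.ext <;> simp [add_comm]
  simp only [Function.comp_apply]
  rw [h2]

/-- the Eichler integral at `τ₁` computed with an arbitrary primitive of `f(w)(w-τ₁)^n` -/
theorem sep_phi_eq (f : CuspForm Γ ((n : ℤ) + 2)) {H : ℕ → ℂ → ℂ}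
    (hH : ∀ j, IsPrim (H j) (integrand f (X ^ j))) (τ₁ : ℍ) {G : ℂ → ℂ}
    (hG : IsPrim G (integrand f ((X - C (τ₁ : ℂ)) ^ n))) :
    sepPhi H (fun j ↦ cuspLim (H j) 1) n τ₁ = G τ₁ - cuspLim G 1 := by
  have hdeg : ((X - C (τ₁ : ℂ)) ^ n).natDegree ≤ n := by
    calc ((X - C (τ₁ : ℂ)) ^ n).natDegree ≤ n * (X - C (τ₁ : ℂ)).natDegree := natDegree_pow_le
      _ = n := by rw [natDegree_X_sub_C, mul_one]
  have hG₀ := sep_isPrim_comb hH n (τ₁ : ℂ)
  obtain ⟨c, hc⟩ := hG.exists_eq_add_const hG₀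
  have hlimH : ∀ j ∈ Finset.range (n + 1), Tendsto (fun t : ℝ ↦
      H j (((1 : SL(2, ℤ)) • ofComplex (((0 : ℝ) : ℂ) + Complex.I * (((1 : ℝ) : ℂ) * t)) : ℍ) : ℂ))
      atTop (𝓝 (cuspLim (H j) 1)) := fun j hj =>
    tendsto_cusp f (by rw [natDegree_X_pow]; exact Nat.lt_succ_iff.mp (Finset.mem_range.mp hj))
      (hH j) 1 0 1 one_pos
  have hlimG : Tendsto (fun t : ℝ ↦
      G (((1 : SL(2, ℤ)) • ofComplex (((0 : ℝ) : ℂ) + Complex.I * (((1 : ℝ) : ℂ) * t)) : ℍ) : ℂ))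
      atTop (𝓝 (cuspLim G 1)) := tendsto_cusp f hdeg hG 1 0 1 one_pos
  have hlimG₀ : Tendsto (fun t : ℝ ↦ ∑ j ∈ Finset.range (n + 1), (n.choose j : ℂ) *
      ((-(τ₁ : ℂ)) ^ (n - j) *
        H j (((1 : SL(2, ℤ)) • ofComplex (((0 : ℝ) : ℂ) + Complex.I * (((1 : ℝ) : ℂ) * t)) : ℍ) : ℂ)))
      atTop (𝓝 (∑ j ∈ Finset.range (n + 1), (n.choose j : ℂ) *
        ((-(τ₁ : ℂ)) ^ (n - j) * cuspLim (H j) 1))) := by
    apply tendsto_finsetSum
    intro j hj
    exact ((hlimH j hj).const_mul _).const_mul _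
  have hlimG₀' : Tendsto (fun t : ℝ ↦ ∑ j ∈ Finset.range (n + 1), (n.choose j : ℂ) *
      ((-(τ₁ : ℂ)) ^ (n - j) *
        H j (((1 : SL(2, ℤ)) • ofComplex (((0 : ℝ) : ℂ) + Complex.I * (((1 : ℝ) : ℂ) * t)) : ℍ) : ℂ)))
      atTop (𝓝 (cuspLim G 1 - c)) := by
    refine (hlimG.sub_const c).congr fun t => ?_
    rw [hc]
    ring
  have huniq := tendsto_nhds_unique hlimG₀ hlimG₀'
  have hG₁ := hc τ₁
  have hsplit : sepPhi H (fun j ↦ cuspLim (H j) 1) n τ₁ =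
      (∑ j ∈ Finset.range (n + 1), (n.choose j : ℂ) * ((-(τ₁ : ℂ)) ^ (n - j) * H j τ₁)) -
      ∑ j ∈ Finset.range (n + 1), (n.choose j : ℂ) * ((-(τ₁ : ℂ)) ^ (n - j) * cuspLim (H j) 1) := by
    unfold sepPhi
    rw [← Finset.sum_sub_distrib]
    refine Finset.sum_congr rfl fun j _ => ?_
    ring
  rw [hsplit, huniq, hG₁]
  ring

/-- Key identity: the slash of the Eichler integral of `f` by `g` is the Eichler integral
of `f ∣ g`, when all modular symbols of `f` vanish. -/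
theorem sep_key (f : CuspForm Γ ((n : ℤ) + 2)) (h : ∀ φ ∈ lattice Γ n, φ f = 0)
    {H : ℕ → ℂ → ℂ} (hH : ∀ j, IsPrim (H j) (integrand f (X ^ j))) (g : SL(2, ℤ)) (τ₀ : ℍ) :
    ∃ (G : ℂ → ℂ) (ℓ : ℂ),
      IsPrim G (fun τ ↦ (⇑f ∣[(n : ℤ) + 2] g) τ * ((τ : ℂ) - τ₀) ^ n) ∧
      Tendsto (fun t : ℝ ↦ G (τ₀ + Complex.I * t)) atTop (𝓝 ℓ) ∧
      ((fun τ : ℍ ↦ sepPhi H (fun j ↦ cuspLim (H j) 1) n τ) ∣[-(n : ℤ)] g) τ₀ = G τ₀ - ℓ := by
  set τ₁ : ℍ := g • τ₀ with hτ₁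
  have hQ₀ : ((X - C (τ₁ : ℂ)) ^ n).natDegree ≤ n := by
    calc ((X - C (τ₁ : ℂ)) ^ n).natDegree ≤ n * (X - C (τ₁ : ℂ)).natDegree := natDegree_pow_le
      _ = n := by rw [natDegree_X_sub_C, mul_one]
  obtain ⟨Hh, hHh⟩ := exists_isPrim (sep_mdiff_integrand f ((X - C (τ₁ : ℂ)) ^ n))
  have hΦ := sep_phi_eq f hH τ₁ hHh
  set gG : GL (Fin 2) ℝ := (g : GL (Fin 2) ℝ) with hgG
  have hdet : gG.det.val = 1 := by simp [hgG]
  have hdetpos : 0 < gG.det.val := by rw [hdet]; exact one_pos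
  have hsmul : ∀ τ : ℍ, g • τ = gG • τ := fun τ => rfl
  have hcomp := hHh.comp_moeb hdetpos
  set d₀ : ℂ := denom gG τ₀ with hd₀
  have hd₀ne : d₀ ≠ 0 := denom_ne_zero gG τ₀
  have hsymb : cuspLim Hh g = cuspLim Hh 1 := by
    have h1 := symb_eq f hQ₀ hHh 1 g
    rw [sep_symb_zero f h hQ₀ 1 g] at h1
    exact (sub_eq_zero.mp h1.symm)
  refine ⟨fun z ↦ d₀ ^ n * Hh (moeb gG z), d₀ ^ n * cuspLim Hh g, ?_, ?_, ?_⟩
  · intro τ
    have h1 := (hcomp τ).const_mul (d₀ ^ n)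
    have hdτ : denom gG τ ≠ 0 := denom_ne_zero gG τ
    have hval : (⇑f ∣[(n : ℤ) + 2] g) τ * ((τ : ℂ) - τ₀) ^ n =
        d₀ ^ n * (integrand f ((X - C (τ₁ : ℂ)) ^ n) (gG • τ) *
          ((gG.det.val : ℂ) / denom gG τ ^ 2)) := by
      rw [ModularForm.SL_slash_apply]
      simp only [integrand, eval_pow, eval_sub, eval_X, eval_C, hdet]
      rw [hτ₁, hsmul τ₀, sep_moeb_sub gG hdet τ τ₀, ← hd₀, hsmul τ]
      have hz : denom gG τ ^ (-((n : ℤ) + 2)) = ((denom gG τ) ^ (n + 2))⁻¹ := by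
        rw [zpow_neg, show ((n : ℤ) + 2) = ((n + 2 : ℕ) : ℤ) by push_cast; ring, zpow_natCast]
      rw [← hgG, hz, div_pow, mul_pow, pow_add]
      field_simp
      simp
    exact h1.congr_deriv hval.symm
  · have h1 := sep_shift Hh g τ₀ _ (tendsto_cusp f hQ₀ hHh g τ₀.re 1 one_pos)
    have h2 : ∀ t : ℝ, 0 ≤ t →
        Hh ((g • ofComplex ((τ₀ : ℂ) + Complex.I * t) : ℍ) : ℂ) =
          Hh (moeb gG ((τ₀ : ℂ) + Complex.I * t)) := by
      intro t ht
      have him : 0 < ((τ₀ : ℂ) + Complex.I * t).im := by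
        have : ((τ₀ : ℂ) + Complex.I * t).im = τ₀.im + t := by simp
        rw [this]
        have := τ₀.im_pos
        linarith
      rw [ofComplex_apply_of_im_pos him, hsmul, ← moeb_coe hdetpos]
    have h3 : Tendsto (fun t : ℝ ↦ Hh (moeb gG ((τ₀ : ℂ) + Complex.I * t))) atTop
        (𝓝 (cuspLim Hh g)) := by
      refine h1.congr' ?_
      filter_upwards [eventually_ge_atTop (0 : ℝ)] with t ht
      exact h2 t ht
    exact h3.const_mul (d₀ ^ n)
  · rw [ModularForm.SL_slash_apply]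
    have hz : denom (g : GL (Fin 2) ℝ) τ₀ ^ (-(-(n : ℤ))) = d₀ ^ n := by
      rw [neg_neg, zpow_natCast]
    rw [hz]
    show sepPhi H (fun j ↦ cuspLim (H j) 1) n τ₁ * d₀ ^ n =
      d₀ ^ n * Hh (moeb gG τ₀) - d₀ ^ n * cuspLim Hh g
    rw [hΦ, moeb_coe hdetpos, ← hsmul, ← hτ₁, hsymb]
    ring

/-- a function vanishing on the upper half plane has zero derivative there -/
theorem sep_deriv_zero {F : ℂ → ℂ} {d : ℂ} (τ : ℍ) (hF : ∀ σ : ℍ, F σ = 0)
    (hd : HasDerivAt F d τ) : d = 0 := by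
  have hev : F =ᶠ[𝓝 (τ : ℂ)] fun _ => (0 : ℂ) := by
    filter_upwards [isOpen_upperHalfPlaneSet.mem_nhds τ.im_pos] with z hz
    exact hF ⟨z, hz⟩
  exact hd.unique ((hasDerivAt_const (τ : ℂ) (0 : ℂ)).congr_of_eventuallyEq hev)

theorem lattice_separates (f : CuspForm Γ ((n : ℤ) + 2)) (h : ∀ φ ∈ lattice Γ n, φ f = 0) :
    f = 0 := by
  have hex : ∀ j : ℕ, ∃ Hj : ℂ → ℂ, IsPrim Hj (integrand f (X ^ j)) := fun j =>
    exists_isPrim (sep_mdiff_integrand f (X ^ j))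
  choose H hH using hex
  set L : ℕ → ℂ := fun j ↦ cuspLim (H j) 1 with hL
  set Φ : ℍ → ℂ := fun τ ↦ sepPhi H L n τ with hΦdef
  have hdegX : ∀ u : ℂ, ((X - C u) ^ n).natDegree ≤ n := fun u => by
    calc ((X - C u) ^ n).natDegree ≤ n * (X - C u).natDegree := natDegree_pow_le
      _ = n := by rw [natDegree_X_sub_C, mul_one]
  -- holomorphy
  have hΦmd : MDiff Φ := by
    rw [UpperHalfPlane.mdifferentiable_iff]
    intro z hz
    have hd := (sep_hasDerivAt_phi hH L n ⟨z, hz⟩).differentiableAt.differentiableWithinAt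
      (s := {z : ℂ | 0 < z.im})
    refine hd.congr (fun w hw => ?_) ?_
    · simp [Φ, Function.comp, ofComplex_apply_of_im_pos hw]
    · simp [Φ, Function.comp, ofComplex_apply_of_im_pos hz]
  -- invariance
  have hinv : ∀ γ ∈ Γ, Φ ∣[-(n : ℤ)] γ = Φ := by
    intro γ hγ
    funext τ₀
    obtain ⟨G, ℓ, hG, hl, hval⟩ := sep_key f h hH γ τ₀
    have hfγ : (⇑f ∣[(n : ℤ) + 2] γ) = ⇑f :=
      SlashInvariantFormClass.slash_action_eq f _ (Subgroup.mem_map_of_mem _ hγ)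
    rw [hfγ] at hG
    have hG' : IsPrim G (integrand f ((X - C (τ₀ : ℂ)) ^ n)) := by
      intro τ
      have := hG τ
      simpa [integrand] using this
    have h1 := sep_phi_eq f hH τ₀ hG'
    have h2 := sep_shift G 1 τ₀ _ (tendsto_cusp f (hdegX _) hG' 1 τ₀.re 1 one_pos)
    have h3 : Tendsto (fun t : ℝ ↦ G (τ₀ + Complex.I * t)) atTop (𝓝 (cuspLim G 1)) := by
      refine h2.congr' ?_
      filter_upwards [eventually_ge_atTop (0 : ℝ)] with t ht
      have him : 0 < ((τ₀ : ℂ) + Complex.I * t).im := by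
        have : ((τ₀ : ℂ) + Complex.I * t).im = τ₀.im + t := by simp
        rw [this]
        have := τ₀.im_pos
        linarith
      rw [ofComplex_apply_of_im_pos him, one_smul]
    have h4 := tendsto_nhds_unique hl h3
    rw [hval, h4]
    exact h1.symm
  -- decay at all cusps
  have hdec : ∀ g : SL(2, ℤ), IsZeroAtImInfty (Φ ∣[-(n : ℤ)] g) := by
    intro g
    obtain ⟨c, hc, hdecay⟩ := exp_decay_slash f g
    have hcont : Continuous (⇑f ∣[(n : ℤ) + 2] g) :=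
      (MDifferentiable.slash (CuspFormClass.holo f) _ (g : GL (Fin 2) ℝ)).continuous
    obtain ⟨C, A, hCA⟩ := core_bound hcont hc hdecay n
    have hb : ∀ τ₀ : ℍ, A ≤ τ₀.im → ‖(Φ ∣[-(n : ℤ)] g) τ₀‖ ≤ C * Real.exp (-c * τ₀.im) := by
      intro τ₀ hτ₀
      obtain ⟨G, ℓ, hG, hl, hval⟩ := sep_key f h hH g τ₀
      rw [hval]
      exact hCA τ₀ G ℓ hτ₀ hG hl
    have him : Tendsto (fun τ : ℍ ↦ τ.im) atImInfty atTop := tendsto_comap
    have hexp : Tendsto (fun τ : ℍ ↦ C * Real.exp (-c * τ.im)) atImInfty (𝓝 0) := by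
      have h1 : Tendsto (fun τ : ℍ ↦ c * τ.im) atImInfty atTop := him.const_mul_atTop hc
      have h2 := (Real.tendsto_exp_neg_atTop_nhds_zero.comp h1).const_mul C
      simpa [Function.comp, neg_mul] using h2
    exact squeeze_zero_norm' ((atImInfty_mem _).mpr ⟨A, hb⟩) hexp
  have hΦ0 := vanishing n Φ hΦmd hinv hdec
  -- descend
  have hP : ∀ k : ℕ, k ≤ n → ∀ τ : ℍ, sepPhi H L (n - k) τ = 0 := by
    intro k
    induction k with
    | zero =>
      intro _ τ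
      exact congrFun hΦ0 τ
    | succ k ih =>
      intro hk τ
      have hstep : n - k = (n - (k + 1)) + 1 := by omega
      have hprev := ih (by omega)
      rw [hstep] at hprev
      have hd := sep_hasDerivAt_phi_succ hH L (n - (k + 1)) τ
      have h0 := sep_deriv_zero τ hprev hd
      have hne : -(((n - (k + 1) : ℕ) : ℂ) + 1) ≠ 0 :=
        neg_ne_zero.mpr (Nat.cast_add_one_ne_zero _)
      exact (mul_eq_zero.mp h0).resolve_left hne
  have hP0 : ∀ τ : ℍ, sepPhi H L 0 τ = 0 := by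
    have := hP n le_rfl
    simpa using this
  ext τ
  have hd := sep_hasDerivAt_phi hH L 0 τ
  have h0 := sep_deriv_zero τ hP0 hd
  simpa using h0

end Fermat.Agent.S22
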