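import Mathlib
import Fermat.Agent.S22.Defs
import Fermat.Agent.S22.Van

/-!
# S22 : cusp forms of weight `< 2` on `Γ₀(N)` vanish
-/

set_option autoImplicit false

open UpperHalfPlane Complex Filter Topology
open scoped MatrixGroups ModularForm Manifold

namespace Fermat.Agent.S22

theorem triv_neg_one_mem (N : ℕ) :
    (-1 : GL (Fin 2) ℝ) ∈ ((CongruenceSubgroup.Gamma0 N : Subgroup SL(2, ℤ)) :
      Subgroup (GL (Fin 2) ℝ)) := by
  refine ⟨-1, ?_, ?_⟩
  · rw [SetLike.mem_coe, CongruenceSubgroup.Gamma0_mem]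
    simp
  · ext i j
    fin_cases i <;> fin_cases j <;> simp [Matrix.SpecialLinearGroup.mapGL]

theorem triv_eq_zero_of_nonpos (N : ℕ) [NeZero N] (k : ℤ) (hk : k ≤ 0)
    (f : CuspForm (CongruenceSubgroup.Gamma0 N) k) : f = 0 := by
  obtain ⟨n, rfl⟩ : ∃ n : ℕ, k = -(n : ℤ) := ⟨(-k).toNat, by omega⟩
  have h := vanishing (Γ := CongruenceSubgroup.Gamma0 N) n (⇑f) f.holo'
    (fun γ hγ => by
      rw [ModularForm.SL_slash]
      exact SlashInvariantFormClass.slash_action_eq f _ ⟨γ, hγ, rfl⟩)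
    (fun g => CuspFormClass.zero_at_infty_slash f g)
  exact DFunLike.coe_injective h

theorem triv_eq_zero_of_one (N : ℕ) [NeZero N]
    (f : CuspForm (CongruenceSubgroup.Gamma0 N) 1) : f = 0 := by
  ext z
  have hf := SlashInvariantForm.slash_action_eqn'' f (triv_neg_one_mem N) z
  rw [neg_smul, one_smul, denom_neg, denom_one, zpow_one] at hf
  have h2 : (2 : ℂ) * f z = 0 := by linear_combination hf
  exact (mul_eq_zero.mp h2).resolve_left (by norm_num)

theorem subsingleton_cuspForm_of_lt_two (N : ℕ) [NeZero N] (k : ℤ) (hk : k < 2) :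
    Subsingleton (CuspForm (CongruenceSubgroup.Gamma0 N) k) := by
  refine subsingleton_of_forall_eq 0 fun f => ?_
  rcases lt_or_eq_of_le (show k ≤ 1 by omega) with h | rfl
  · exact triv_eq_zero_of_nonpos N k (by omega) f
  · exact triv_eq_zero_of_one N f

end Fermat.Agent.S22
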