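import Fermat.Agent.S22.Hecke
import Fermat.Agent.S22.Alg
import Fermat.Agent.S22.Triv
import Fermat.Agent.S22.FG
import Fermat.Agent.S22.Sep

set_option autoImplicit false
open CuspForm UpperHalfPlane
open scoped MatrixGroups ModularForm Manifold

namespace Fermat.Agent.S22

/-- The Hecke algebra of `S_k(Γ₀(N))` (generated away from `S`) is a finite `ℤ`-module. -/
theorem main_result (N : ℕ) [NeZero N] (k : ℤ) (S : Set ℕ) :
    Module.Finite ℤ (CuspForm.heckeAlgebra N k S) := by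
  rcases lt_or_ge k 2 with hk | hk
  · have := subsingleton_cuspForm_of_lt_two N k hk
    have : Subsingleton (CuspForm.heckeAlgebra N k S) :=
      ⟨fun a b ↦ Subtype.ext (LinearMap.ext fun f ↦ Subsingleton.elim _ _)⟩
    exact Module.Finite.of_surjective (0 : ℤ →ₗ[ℤ] CuspForm.heckeAlgebra N k S)
      fun y ↦ ⟨0, Subsingleton.elim _ _⟩
  · obtain ⟨n, rfl⟩ : ∃ n : ℕ, k = (n : ℤ) + 2 := ⟨(k - 2).toNat, by omega⟩
    refine finite_adjoin_of_lattice (CuspForm.heckeGenerators N ((n : ℤ) + 2) S)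
      (lattice (CongruenceSubgroup.Gamma0 N) n) (lattice_fg _ n)
      (fun f hf ↦ lattice_separates f hf) ?_
    rintro T (⟨ℓ, hℓ, hℓN, -, rfl⟩ | ⟨q, hqN, hq, -, rfl⟩) φ hφ
    · exact lattice_heckeT_stable N n hℓ hℓN φ hφ
    · exact lattice_heckeU_stable N n hq hqN φ hφ

end Fermat.Agent.S22
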