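import Mathlib
import Fermat.Agent.S22.Defs

/-!
# S22 : Hermite normal form for integral `2 × 2` matrices of positive determinant
-/

set_option autoImplicit false

open scoped MatrixGroups

namespace Fermat.Agent.S22

/-- Hermite normal form: an integral `2 × 2` matrix of positive determinant is the product of an
element of `SL(2, ℤ)` and an upper triangular integral matrix with positive diagonal. -/
theorem hermite (M : Matrix (Fin 2) (Fin 2) ℤ) (hM : 0 < M.det) :
    ∃ (g : SL(2, ℤ)) (a b d : ℤ), 0 < a ∧ 0 < d ∧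
      M = (g : Matrix (Fin 2) (Fin 2) ℤ) * !![a, b; 0, d] := by
  rw [Matrix.det_fin_two] at hM
  set x := M 0 0 with hx
  set y := M 1 0 with hy
  set e := M 0 1 with he
  set f := M 1 1 with hf
  have hxy : x ≠ 0 ∨ y ≠ 0 := by
    by_contra h
    rw [not_or, not_not, not_not] at h
    rw [h.1, h.2] at hM
    simp at hM
  have hg0 : (0 : ℤ) < (Int.gcd x y : ℤ) := by
    have : Int.gcd x y ≠ 0 := by
      rw [Ne, Int.gcd_eq_zero_iff]
      tauto
    exact_mod_cast Nat.pos_of_ne_zero this
  obtain ⟨x', hx'⟩ : ((Int.gcd x y : ℤ)) ∣ x := Int.gcd_dvd_left x y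
  obtain ⟨y', hy'⟩ : ((Int.gcd x y : ℤ)) ∣ y := Int.gcd_dvd_right x y
  have hbez := Int.gcd_eq_gcd_ab x y
  set g : ℤ := (Int.gcd x y : ℤ) with hgdef
  set u := Int.gcdA x y
  set v := Int.gcdB x y
  have h1 : x' * u + y' * v = 1 := by
    have h2 : g * (x' * u + y' * v) = g * 1 := by
      rw [mul_one]
      calc g * (x' * u + y' * v) = (g * x') * u + (g * y') * v := by ring
        _ = x * u + y * v := by rw [← hx', ← hy']
        _ = g := hbez.symm
    exact mul_left_cancel₀ hg0.ne' h2
  have hdet : (!![x', -v; y', u] : Matrix (Fin 2) (Fin 2) ℤ).det = 1 := by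
    rw [Matrix.det_fin_two_of]
    linear_combination h1
  have hd : 0 < -y' * e + x' * f := by
    have h3 : g * (-y' * e + x' * f) = x * f - e * y := by
      rw [hx', hy']; ring
    have h4 : 0 < g * (-y' * e + x' * f) := by rw [h3]; exact hM
    by_contra hneg
    rw [not_lt] at hneg
    have := mul_nonpos_of_nonneg_of_nonpos hg0.le hneg
    omega
  refine ⟨⟨!![x', -v; y', u], hdet⟩, g, u * e + v * f, -y' * e + x' * f, hg0, hd, ?_⟩
  ext i j
  fin_cases i <;> fin_cases j
  · simp only [Fin.zero_eta, Fin.isValue, Matrix.mul_apply, Fin.sum_univ_two, Matrix.of_apply,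
      Matrix.cons_val', Matrix.cons_val_zero, Matrix.cons_val_fin_one, Matrix.cons_val_one]
    show x = _
    rw [hx']; ring
  · simp only [Fin.zero_eta, Fin.isValue, Fin.mk_one, Matrix.mul_apply, Fin.sum_univ_two,
      Matrix.of_apply, Matrix.cons_val', Matrix.cons_val_zero, Matrix.cons_val_fin_one,
      Matrix.cons_val_one]
    show e = _
    linear_combination (-e) * h1
  · simp only [Fin.mk_one, Fin.isValue, Fin.zero_eta, Matrix.mul_apply, Fin.sum_univ_two,
      Matrix.of_apply, Matrix.cons_val', Matrix.cons_val_zero, Matrix.cons_val_fin_one,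
      Matrix.cons_val_one]
    show y = _
    rw [hy']; ring
  · simp only [Fin.mk_one, Fin.isValue, Matrix.mul_apply, Fin.sum_univ_two, Matrix.of_apply,
      Matrix.cons_val', Matrix.cons_val_zero, Matrix.cons_val_fin_one, Matrix.cons_val_one]
    show f = _
    linear_combination (-f) * h1

end Fermat.Agent.S22
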