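import Fermat.Agent.S22.Symb
import Fermat.Agent.S22.Hermite

/-!
# S22 : the modular symbol lattice is stable under the Hecke operators `T_p`, `U_p`
-/

set_option autoImplicit false

open UpperHalfPlane Complex Filter Topology Polynomial
open scoped MatrixGroups ModularForm Manifold

namespace Fermat.Agent.S22

variable {Γ : Subgroup SL(2, ℤ)} [Γ.FiniteIndex] {n : ℕ}

/-- The action of an upper triangular matrix on the imaginary axis. -/
theorem hecke_upper_smul {a b d : ℝ} (ha : 0 < a) (hd : 0 < d) {t : ℝ} (ht : 0 < t) :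
    ModularForm.upperTriangularGL a b d (mul_pos ha hd).ne' • ofComplex (Complex.I * t) =
      ofComplex (((b / d : ℝ) : ℂ) + Complex.I * (((a / d : ℝ) : ℂ) * t)) := by
  have him1 : 0 < (Complex.I * (t : ℂ)).im := by simpa using ht
  have him2 : 0 < ((((b / d : ℝ) : ℂ)) + Complex.I * (((a / d : ℝ) : ℂ) * t)).im := by
    simpa using mul_pos (div_pos ha hd) ht
  have hdet : 0 < (ModularForm.upperTriangularGL a b d (mul_pos ha hd).ne').det.val := by
    rw [Matrix.GeneralLinearGroup.val_det_apply, ModularForm.val_upperTriangularGL,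
      Matrix.det_fin_two_of]
    simpa using mul_pos ha hd
  apply UpperHalfPlane.ext
  rw [UpperHalfPlane.coe_smul_of_det_pos hdet, ofComplex_apply_of_im_pos him1,
    ofComplex_apply_of_im_pos him2]
  have hd' : (d : ℂ) ≠ 0 := by exact_mod_cast hd.ne'
  simp [UpperHalfPlane.num, UpperHalfPlane.denom, ModularForm.val_upperTriangularGL]
  field_simp
  ring

/-- `m * g = g₁ * u` with `u` upper triangular with positive diagonal. -/
def HeckeRel (m : GL (Fin 2) ℝ) (g g1 : SL(2, ℤ)) : Prop :=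
  ∃ (a b d : ℝ) (ha : 0 < a) (hd : 0 < d),
    m * (g : GL (Fin 2) ℝ) =
      (g1 : GL (Fin 2) ℝ) * ModularForm.upperTriangularGL a b d (mul_pos ha hd).ne'

theorem hecke_tendsto (f : CuspForm Γ ((n : ℤ) + 2)) {Q : ℂ[X]} (hQ : Q.natDegree ≤ n)
    {H : ℂ → ℂ} (hH : IsPrim H (integrand f Q)) {m : GL (Fin 2) ℝ} (hm : 0 < m.det.val)
    {g g1 : SL(2, ℤ)} (hrel : HeckeRel m g g1) :
    Tendsto (fun t : ℝ ↦ H (moeb m ((g • ofComplex (Complex.I * t) : ℍ) : ℂ))) atTop
      (𝓝 (cuspLim H g1)) := by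
  obtain ⟨a, b, d, ha, hd, hmat⟩ := hrel
  have h1 := tendsto_cusp f hQ hH g1 (b / d) (a / d) (div_pos ha hd)
  refine h1.congr' ?_
  filter_upwards [eventually_gt_atTop 0] with t ht
  symm
  rw [moeb_coe hm, ModularGroup.sl_moeb, ← mul_smul, hmat, mul_smul, hecke_upper_smul ha hd ht]
  rfl

omit [Γ.FiniteIndex] in
theorem hecke_mdiff_integrand (f : CuspForm Γ ((n : ℤ) + 2)) (Q : ℂ[X]) :
    MDiff (integrand f Q) := by
  have h1 : MDiff (⇑f : ℍ → ℂ) := CuspFormClass.holo f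
  have h2 : MDiff (fun τ : ℍ ↦ Q.eval (τ : ℂ)) :=
    (Q.differentiable.mdifferentiable).comp UpperHalfPlane.mdifferentiable_coe
  exact h1.mul h2

/-- The general change-of-variables formula for modular symbols. -/
theorem hecke_symb_sum {ι : Type*} (s : Finset ι) (f F : CuspForm Γ ((n : ℤ) + 2)) {Q : ℂ[X]}
    (hQ : Q.natDegree ≤ n) (Qi : ι → ℂ[X]) (hQi : ∀ i ∈ s, (Qi i).natDegree ≤ n)
    (m : ι → GL (Fin 2) ℝ) (hm : ∀ i ∈ s, 0 < (m i).det.val)
    (hint : ∀ τ : ℍ, F τ * Q.eval (τ : ℂ) =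
      ∑ i ∈ s, f (m i • τ) * (Qi i).eval ((m i • τ : ℍ) : ℂ) *
        ((m i).det.val / denom (m i) τ ^ 2))
    (g g' : SL(2, ℤ)) (g1 g1' : ι → SL(2, ℤ)) (hrel : ∀ i ∈ s, HeckeRel (m i) g (g1 i))
    (hrel' : ∀ i ∈ s, HeckeRel (m i) g' (g1' i)) :
    symb F Q g g' = ∑ i ∈ s, symb f (Qi i) (g1 i) (g1' i) := by
  classical
  have hprim : ∀ i, ∃ Hi : ℂ → ℂ, IsPrim Hi (integrand f (Qi i)) :=
    fun i ↦ exists_isPrim (hecke_mdiff_integrand f (Qi i))
  choose Hi hHi using hprim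
  have hGprim : IsPrim (fun z ↦ ∑ i ∈ s, Hi i (moeb (m i) z)) (integrand F Q) := by
    intro τ
    have h := HasDerivAt.fun_sum (u := s) (A := fun i z ↦ Hi i (moeb (m i) z))
      (A' := fun i ↦ integrand f (Qi i) (m i • τ) * ((m i).det.val / denom (m i) τ ^ 2))
      (x := (τ : ℂ)) (fun i hi ↦ (hHi i).comp_moeb (hm i hi) τ)
    have heq : integrand F Q τ = ∑ i ∈ s, integrand f (Qi i) (m i • τ) *
        ((m i).det.val / denom (m i) τ ^ 2) := by
      simp only [integrand]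
      exact hint τ
    rw [heq]
    exact h
  have hlim : ∀ (g : SL(2, ℤ)) (g1 : ι → SL(2, ℤ)), (∀ i ∈ s, HeckeRel (m i) g (g1 i)) →
      cuspLim (fun z ↦ ∑ i ∈ s, Hi i (moeb (m i) z)) g = ∑ i ∈ s, cuspLim (Hi i) (g1 i) := by
    intro g g1 hrel
    apply Tendsto.limUnder_eq
    apply tendsto_finsetSum
    intro i hi
    exact hecke_tendsto f (hQi i hi) (hHi i) (hm i hi) (hrel i hi)
  rw [symb_eq F hQ hGprim g g', hlim g g1 hrel, hlim g' g1' hrel', ← Finset.sum_sub_distrib]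
  refine Finset.sum_congr rfl fun i hi ↦ ?_
  rw [symb_eq f (hQi i hi) (hHi i)]

/-- Hermite normal form gives the relation needed for `hecke_symb_sum`. -/
theorem hecke_rel_of_int (m : GL (Fin 2) ℝ) (M : Matrix (Fin 2) (Fin 2) ℤ) (hM : 0 < M.det)
    (hmM : ∀ i k, (m : Matrix (Fin 2) (Fin 2) ℝ) i k = ((M i k : ℤ) : ℝ)) (g : SL(2, ℤ)) :
    ∃ g1 : SL(2, ℤ), HeckeRel m g g1 := by
  obtain ⟨g1, a, b, d, ha, hd, h⟩ := hermite (M * (g : Matrix (Fin 2) (Fin 2) ℤ))
    (by rw [Matrix.det_mul, Matrix.SpecialLinearGroup.det_coe, mul_one]; exact hM)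
  refine ⟨g1, a, b, d, by exact_mod_cast ha, by exact_mod_cast hd, ?_⟩
  ext i j
  have hij := congrArg (fun A : Matrix (Fin 2) (Fin 2) ℤ ↦ ((A i j : ℤ) : ℝ)) h
  simp only [Matrix.mul_apply, Fin.sum_univ_two] at hij
  push_cast at hij
  simp only [Matrix.GeneralLinearGroup.coe_mul, Matrix.mul_apply, Fin.sum_univ_two, hmM,
    ModularForm.val_upperTriangularGL]
  fin_cases i <;> fin_cases j <;> simpa using hij

/-- The change of variables for one term `f ∣[k] [1 j; 0 p]` of `U_p` / `T_p`. -/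
theorem hecke_term_U (n : ℕ) {p : ℕ} (hp0 : p ≠ 0) (j : ℕ) (f : ℍ → ℂ) {Q : ℂ[X]}
    (hQ : Q.natDegree ≤ n) (τ : ℍ) :
    (f ∣[(n : ℤ) + 2] ModularForm.heckeMatrix p j) τ * Q.eval (τ : ℂ) =
      f (ModularForm.heckeMatrix p j • τ) *
        (polyAct n (p : ℂ) (-(j : ℂ)) 0 1 Q).eval ((ModularForm.heckeMatrix p j • τ : ℍ) : ℂ) *
        ((ModularForm.heckeMatrix p j).det.val / denom (ModularForm.heckeMatrix p j) τ ^ 2) := by
  have hp' : (p : ℂ) ≠ 0 := by exact_mod_cast hp0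
  have hne : (0 : ℂ) * (((τ : ℂ) + j) / p) + 1 ≠ 0 := by simp
  have harg : ((p : ℂ) * (((τ : ℂ) + j) / p) + -(j : ℂ)) / (0 * (((τ : ℂ) + j) / p) + 1) = τ := by
    have h1 : (p : ℂ) * (((τ : ℂ) + j) / p) = (τ : ℂ) + j := by field_simp
    rw [h1, zero_mul, zero_add, div_one]
    ring
  rw [ModularForm.slash_heckeMatrix_apply _ hp0, ModularForm.det_heckeMatrix hp0,
    ModularForm.denom_heckeMatrix hp0, ModularForm.coe_heckeMatrix_smul hp0,
    eval_polyAct n _ _ _ _ hQ hne, harg]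
  simp only [zero_mul, zero_add, one_pow, one_mul, Complex.ofReal_natCast]
  field_simp

/-- The change of variables for the term `f ∣[k] [p 0; 0 1]` of `T_p`. -/
theorem hecke_term_diag (n : ℕ) {p : ℕ} (hp0 : p ≠ 0) (f : ℍ → ℂ) {Q : ℂ[X]}
    (hQ : Q.natDegree ≤ n) (τ : ℍ) :
    (f ∣[(n : ℤ) + 2] ModularForm.heckeDiagMatrix p) τ * Q.eval (τ : ℂ) =
      f (ModularForm.heckeDiagMatrix p • τ) *
        (polyAct n (1 : ℂ) 0 0 (p : ℂ) Q).eval ((ModularForm.heckeDiagMatrix p • τ : ℍ) : ℂ) *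
        ((ModularForm.heckeDiagMatrix p).det.val / denom (ModularForm.heckeDiagMatrix p) τ ^ 2) := by
  have hp' : (p : ℂ) ≠ 0 := by exact_mod_cast hp0
  have hne : (0 : ℂ) * ((p : ℂ) * (τ : ℂ)) + (p : ℂ) ≠ 0 := by simpa using hp'
  have harg : ((1 : ℂ) * ((p : ℂ) * (τ : ℂ)) + 0) / (0 * ((p : ℂ) * (τ : ℂ)) + (p : ℂ)) = τ := by
    rw [one_mul, add_zero, zero_mul, zero_add, mul_div_cancel_left₀ _ hp']
  have hk : ((n : ℤ) + 2 - 1) = ((n + 1 : ℕ) : ℤ) := by push_cast; ring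
  rw [ModularForm.slash_heckeDiagMatrix_apply _ hp0, ModularForm.det_heckeDiagMatrix hp0,
    ModularForm.denom_heckeDiagMatrix hp0, ModularForm.coe_heckeDiagMatrix_smul hp0,
    eval_polyAct n _ _ _ _ hQ hne, harg, hk, zpow_natCast]
  simp only [zero_mul, zero_add, one_pow, div_one, Complex.ofReal_natCast]
  ring

theorem hecke_rel_heckeMatrix {p : ℕ} (hp0 : p ≠ 0) (j : ℕ) (g : SL(2, ℤ)) :
    ∃ g1 : SL(2, ℤ), HeckeRel (ModularForm.heckeMatrix p j) g g1 := by
  refine hecke_rel_of_int _ !![1, (j : ℤ); 0, (p : ℤ)] ?_ ?_ g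
  · rw [Matrix.det_fin_two_of]
    simpa using Nat.pos_of_ne_zero hp0
  · intro i k
    rw [ModularForm.val_heckeMatrix hp0]
    fin_cases i <;> fin_cases k <;> simp

theorem hecke_rel_heckeDiagMatrix {p : ℕ} (hp0 : p ≠ 0) (g : SL(2, ℤ)) :
    ∃ g1 : SL(2, ℤ), HeckeRel (ModularForm.heckeDiagMatrix p) g g1 := by
  refine hecke_rel_of_int _ !![(p : ℤ), 0; 0, 1] ?_ ?_ g
  · rw [Matrix.det_fin_two_of]
    simpa using Nat.pos_of_ne_zero hp0
  · intro i k
    rw [ModularForm.val_heckeDiagMatrix hp0]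
    fin_cases i <;> fin_cases k <;> simp

theorem lattice_heckeU_stable (N : ℕ) [NeZero N] (n : ℕ) {p : ℕ} (hp : p.Prime) (hpN : p ∣ N)
    (φ : Module.Dual ℂ (CuspForm (CongruenceSubgroup.Gamma0 N) ((n : ℤ) + 2)))
    (hφ : φ ∈ lattice (CongruenceSubgroup.Gamma0 N) n) :
    φ ∘ₗ CuspForm.heckeULin ((n : ℤ) + 2) hpN ∈ lattice (CongruenceSubgroup.Gamma0 N) n := by
  classical
  have hp0 : p ≠ 0 := hp.ne_zero
  induction hφ using Submodule.span_induction with
  | mem φ hφ =>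
    obtain ⟨P, g, g', hP, rfl⟩ := hφ
    have hPc : (P.map (Int.castRingHom ℂ)).natDegree ≤ n := natDegree_map_le.trans hP
    choose G1 hG1 using fun (g : SL(2, ℤ)) (j : ℕ) ↦ hecke_rel_heckeMatrix hp0 j g
    have key : symbL (CongruenceSubgroup.Gamma0 N) n P g g' ∘ₗ
          CuspForm.heckeULin ((n : ℤ) + 2) hpN =
        ∑ j ∈ Finset.range p, symbL (CongruenceSubgroup.Gamma0 N) n
          (polyAct n (p : ℤ) (-(j : ℤ)) 0 1 P) (G1 g j) (G1 g' j) := by
      apply LinearMap.ext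
      intro f
      rw [LinearMap.comp_apply, symbL_apply hP, LinearMap.sum_apply]
      have h := hecke_symb_sum (Finset.range p) f (CuspForm.heckeULin ((n : ℤ) + 2) hpN f) hPc
        (fun j ↦ polyAct n (p : ℂ) (-(j : ℂ)) 0 1 (P.map (Int.castRingHom ℂ)))
        (fun j _ ↦ natDegree_polyAct_le _ _ _ _ _ _)
        (fun j ↦ ModularForm.heckeMatrix p j) (fun j _ ↦ ModularForm.det_heckeMatrix_pos p j)
        ?_ g g' (G1 g) (G1 g') (fun j _ ↦ hG1 g j) (fun j _ ↦ hG1 g' j)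
      · rw [h]
        refine Finset.sum_congr rfl fun j _ ↦ ?_
        rw [symbL_apply (natDegree_polyAct_le _ _ _ _ _ _), polyAct_map]
        simp
      · intro τ
        rw [CuspForm.heckeULin_apply_apply, ModularForm.heckeU_def, Finset.sum_apply,
          Finset.sum_mul]
        exact Finset.sum_congr rfl fun j _ ↦ hecke_term_U n hp0 j f hPc τ
    rw [key]
    exact Submodule.sum_mem _ fun j _ ↦ Submodule.subset_span
      ⟨_, G1 g j, G1 g' j, natDegree_polyAct_le _ _ _ _ _ _, rfl⟩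
  | zero => rw [LinearMap.zero_comp]; exact Submodule.zero_mem _
  | add φ ψ _ _ hφ hψ => rw [LinearMap.add_comp]; exact Submodule.add_mem _ hφ hψ
  | smul c φ _ hφ => rw [LinearMap.smul_comp]; exact Submodule.smul_mem _ c hφ

theorem lattice_heckeT_stable (N : ℕ) [NeZero N] (n : ℕ) {p : ℕ} (hp : p.Prime) (hpN : ¬ p ∣ N)
    (φ : Module.Dual ℂ (CuspForm (CongruenceSubgroup.Gamma0 N) ((n : ℤ) + 2)))
    (hφ : φ ∈ lattice (CongruenceSubgroup.Gamma0 N) n) :
    φ ∘ₗ CuspForm.heckeTLin ((n : ℤ) + 2) hp hpN ∈ lattice (CongruenceSubgroup.Gamma0 N) n := by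
  classical
  have hp0 : p ≠ 0 := hp.ne_zero
  induction hφ using Submodule.span_induction with
  | mem φ hφ =>
    obtain ⟨P, g, g', hP, rfl⟩ := hφ
    have hPc : (P.map (Int.castRingHom ℂ)).natDegree ≤ n := natDegree_map_le.trans hP
    -- matrices and polynomials indexed by `j ∈ range (p + 1)` (`j = p` is the diagonal term)
    let m : ℕ → GL (Fin 2) ℝ := fun j ↦
      if j < p then ModularForm.heckeMatrix p j else ModularForm.heckeDiagMatrix p
    let PZ : ℕ → ℤ[X] := fun j ↦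
      if j < p then polyAct n (p : ℤ) (-(j : ℤ)) 0 1 P else polyAct n 1 0 0 (p : ℤ) P
    have hPZ : ∀ j, (PZ j).natDegree ≤ n := fun j ↦ by
      simp only [PZ]
      split_ifs <;> exact natDegree_polyAct_le _ _ _ _ _ _
    have hm : ∀ j, 0 < (m j).det.val := fun j ↦ by
      simp only [m]
      split_ifs
      · exact ModularForm.det_heckeMatrix_pos p j
      · exact ModularForm.det_heckeDiagMatrix_pos p
    have hex : ∀ (g : SL(2, ℤ)) (j : ℕ), ∃ g1 : SL(2, ℤ), HeckeRel (m j) g g1 := fun g j ↦ by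
      simp only [m]
      split_ifs
      · exact hecke_rel_heckeMatrix hp0 j g
      · exact hecke_rel_heckeDiagMatrix hp0 g
    choose G1 hG1 using hex
    have hmapU : ∀ j : ℕ, (polyAct n (p : ℤ) (-(j : ℤ)) 0 1 P).map (Int.castRingHom ℂ) =
        polyAct n (p : ℂ) (-(j : ℂ)) 0 1 (P.map (Int.castRingHom ℂ)) := fun j ↦ by
      rw [polyAct_map]
      simp
    have hmapD : (polyAct n 1 0 0 (p : ℤ) P).map (Int.castRingHom ℂ) =
        polyAct n (1 : ℂ) 0 0 (p : ℂ) (P.map (Int.castRingHom ℂ)) := by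
      rw [polyAct_map]
      simp
    have key : symbL (CongruenceSubgroup.Gamma0 N) n P g g' ∘ₗ
          CuspForm.heckeTLin ((n : ℤ) + 2) hp hpN =
        ∑ j ∈ Finset.range (p + 1),
          symbL (CongruenceSubgroup.Gamma0 N) n (PZ j) (G1 g j) (G1 g' j) := by
      apply LinearMap.ext
      intro f
      rw [LinearMap.comp_apply, symbL_apply hP, LinearMap.sum_apply]
      have h := hecke_symb_sum (Finset.range (p + 1)) f
        (CuspForm.heckeTLin ((n : ℤ) + 2) hp hpN f) hPc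
        (fun j ↦ (PZ j).map (Int.castRingHom ℂ))
        (fun j _ ↦ natDegree_map_le.trans (hPZ j))
        m (fun j _ ↦ hm j)
        ?_ g g' (G1 g) (G1 g') (fun j _ ↦ hG1 g j) (fun j _ ↦ hG1 g' j)
      · rw [h]
        refine Finset.sum_congr rfl fun j _ ↦ ?_
        rw [symbL_apply (hPZ j)]
      · intro τ
        rw [CuspForm.heckeTLin_apply_apply, ModularForm.heckeT_def, Pi.add_apply,
          Finset.sum_apply, add_mul, Finset.sum_mul, Finset.sum_range_succ]
        congr 1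
        · refine Finset.sum_congr rfl fun j hj ↦ ?_
          have hj' : j < p := Finset.mem_range.mp hj
          simp only [m, PZ, if_pos hj']
          rw [hmapU j]
          exact hecke_term_U n hp0 j f hPc τ
        · simp only [m, PZ, if_neg (lt_irrefl p)]
          rw [hmapD]
          exact hecke_term_diag n hp0 f hPc τ
    rw [key]
    exact Submodule.sum_mem _ fun j _ ↦ Submodule.subset_span
      ⟨PZ j, G1 g j, G1 g' j, hPZ j, rfl⟩
  | zero => rw [LinearMap.zero_comp]; exact Submodule.zero_mem _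
  | add φ ψ _ _ hφ hψ => rw [LinearMap.add_comp]; exact Submodule.add_mem _ hφ hψ
  | smul c φ _ hφ => rw [LinearMap.smul_comp]; exact Submodule.smul_mem _ c hφ

end Fermat.Agent.S22
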