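import Fermat.Agent.S22.Defs

/-!
# S22 : the polynomial action `polyAct`
-/

set_option autoImplicit false

open Polynomial

namespace Fermat.Agent.S22

theorem polyAct_map {R S : Type*} [CommRing R] [CommRing S] (φ : R →+* S) (n : ℕ) (a b c d : R)
    (Q : R[X]) : (polyAct n a b c d Q).map φ = polyAct n (φ a) (φ b) (φ c) (φ d) (Q.map φ) := by
  simp only [polyAct, Polynomial.map_sum, Polynomial.map_mul, Polynomial.map_pow,
    Polynomial.map_add, Polynomial.map_C, Polynomial.map_X, Polynomial.coeff_map]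

theorem poly_natDegree_linear_le {R : Type*} [CommRing R] (a b : R) :
    (C a * X + C b : R[X]).natDegree ≤ 1 :=
  Polynomial.natDegree_linear_le

theorem natDegree_polyAct_le {R : Type*} [CommRing R] (n : ℕ) (a b c d : R) (Q : R[X]) :
    (polyAct n a b c d Q).natDegree ≤ n := by
  unfold polyAct
  refine Polynomial.natDegree_sum_le_of_forall_le _ _ fun j hj ↦ ?_
  have hj' : j ≤ n := Nat.lt_succ_iff.mp (Finset.mem_range.mp hj)
  have h1 : ((C a * X + C b : R[X]) ^ j).natDegree ≤ j :=
    (Polynomial.natDegree_pow_le).trans (by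
      simpa using Nat.mul_le_mul_left j (poly_natDegree_linear_le a b))
  have h2 : ((C c * X + C d : R[X]) ^ (n - j)).natDegree ≤ n - j :=
    (Polynomial.natDegree_pow_le).trans (by
      simpa using Nat.mul_le_mul_left (n - j) (poly_natDegree_linear_le c d))
  calc (C (Q.coeff j) * (C a * X + C b) ^ j * (C c * X + C d) ^ (n - j)).natDegree
      ≤ (C (Q.coeff j) * (C a * X + C b) ^ j).natDegree
          + ((C c * X + C d : R[X]) ^ (n - j)).natDegree := Polynomial.natDegree_mul_le
    _ ≤ ((C (Q.coeff j) : R[X]).natDegree + ((C a * X + C b : R[X]) ^ j).natDegree)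
          + ((C c * X + C d : R[X]) ^ (n - j)).natDegree :=
        Nat.add_le_add_right Polynomial.natDegree_mul_le _
    _ ≤ (0 + j) + (n - j) := by
        rw [Polynomial.natDegree_C]
        exact Nat.add_le_add (Nat.add_le_add_left h1 _) h2
    _ = n := by omega

theorem eval_polyAct {K : Type*} [Field K] (n : ℕ) (a b c d : K) {Q : K[X]} (hQ : Q.natDegree ≤ n)
    {z : K} (hz : c * z + d ≠ 0) :
    (polyAct n a b c d Q).eval z = (c * z + d) ^ n * Q.eval ((a * z + b) / (c * z + d)) := by
  rw [Polynomial.eval_eq_sum_range' (Nat.lt_succ_of_le hQ), Finset.mul_sum]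
  simp only [polyAct, Polynomial.eval_finsetSum, Polynomial.eval_mul, Polynomial.eval_pow,
    Polynomial.eval_add, Polynomial.eval_C, Polynomial.eval_X]
  refine Finset.sum_congr rfl fun j hj ↦ ?_
  have hj' : j ≤ n := Nat.lt_succ_iff.mp (Finset.mem_range.mp hj)
  have hpow : (c * z + d) ^ n = (c * z + d) ^ j * (c * z + d) ^ (n - j) := by
    rw [← pow_add, Nat.add_sub_cancel' hj']
  rw [hpow, div_pow, mul_div_assoc', mul_div_assoc', eq_div_iff (pow_ne_zero j hz)]
  ring

theorem polyAct_add {R : Type*} [CommRing R] (n : ℕ) (a b c d : R) (Q₁ Q₂ : R[X]) :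
    polyAct n a b c d (Q₁ + Q₂) = polyAct n a b c d Q₁ + polyAct n a b c d Q₂ := by
  simp only [polyAct, Polynomial.coeff_add, map_add, add_mul, Finset.sum_add_distrib]

end Fermat.Agent.S22
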