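import Fermat.Agent.S22.Sep

/-!
# S22 : the recursion for the Eichler integral

`sepPhi n Hn` is holomorphic, and if it vanishes identically then `f = 0`
(differentiate `n + 1` times).
-/

set_option autoImplicit false
set_option linter.unusedSectionVars false

open UpperHalfPlane Complex Filter Topology Polynomial
open scoped MatrixGroups ModularForm Manifold

namespace Fermat.Agent.S22

variable {Γ : Subgroup SL(2, ℤ)} [Γ.FiniteIndex] {n : ℕ}

/-- `Φ_m(z) = ∑_j (m choose j) (-z)^(m-j) H_j(z)` as a function on `ℂ`. -/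
noncomputable def seprecPhi (Hn : ℕ → ℂ → ℂ) (m : ℕ) (z : ℂ) : ℂ :=
  ∑ j ∈ Finset.range (m + 1), (m.choose j : ℂ) * ((-z) ^ (m - j) * Hn j z)

theorem seprec_sepPhi_eq (Hn : ℕ → ℂ → ℂ) (τ : ℍ) :
    sepPhi n Hn τ = seprecPhi Hn n τ := by
  unfold sepPhi sepHQ seprecPhi
  refine Finset.sum_congr rfl fun j _ => ?_
  rw [sub_eq_add_neg, ← C_neg, coeff_X_add_C_pow]
  ring

theorem seprec_hasDerivAt {f : CuspForm Γ ((n : ℤ) + 2)} {Hn : ℕ → ℂ → ℂ}
    (hHn : IsNormSys f Hn) {m : ℕ} (hm : m ≤ n) (τ : ℍ) :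
    HasDerivAt (seprecPhi Hn m)
      (∑ j ∈ Finset.range (m + 1), (m.choose j : ℂ) *
        ((((m - j : ℕ) : ℂ) * (-(τ : ℂ)) ^ (m - j - 1) * (-1)) * Hn j τ +
          (-(τ : ℂ)) ^ (m - j) * (f τ * (τ : ℂ) ^ j))) (τ : ℂ) := by
  unfold seprecPhi
  apply HasDerivAt.fun_sum
  intro j hj
  have hjn : j ≤ n := (Nat.lt_succ_iff.mp (Finset.mem_range.mp hj)).trans hm
  apply HasDerivAt.const_mul
  have h1 : HasDerivAt (fun z : ℂ => (-z) ^ (m - j))
      (((m - j : ℕ) : ℂ) * (-(τ : ℂ)) ^ (m - j - 1) * (-1)) (τ : ℂ) :=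
    ((hasDerivAt_id (τ : ℂ)).neg.pow (m - j))
  have h2 : HasDerivAt (Hn j) (f τ * (τ : ℂ) ^ j) (τ : ℂ) := by
    have := (hHn j hjn).1 τ
    simpa [integrand] using this
  exact h1.mul h2

theorem seprec_alg (m : ℕ) (z w : ℂ) (Y : ℕ → ℂ) :
    ∑ j ∈ Finset.range (m + 1 + 1), ((m + 1).choose j : ℂ) *
        ((((m + 1 - j : ℕ) : ℂ) * (-z) ^ (m + 1 - j - 1) * (-1)) * Y j +
          (-z) ^ (m + 1 - j) * (w * z ^ j)) =
      -((m : ℂ) + 1) * ∑ j ∈ Finset.range (m + 1), (m.choose j : ℂ) * ((-z) ^ (m - j) * Y j) := by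
  have hb : ∑ j ∈ Finset.range (m + 1 + 1), ((m + 1).choose j : ℂ) *
      ((-z) ^ (m + 1 - j) * (w * z ^ j)) = 0 := by
    have h := add_pow z (-z) (m + 1)
    rw [add_neg_cancel, zero_pow (Nat.succ_ne_zero m)] at h
    calc ∑ j ∈ Finset.range (m + 1 + 1), ((m + 1).choose j : ℂ) *
          ((-z) ^ (m + 1 - j) * (w * z ^ j))
        = w * ∑ j ∈ Finset.range (m + 1 + 1), z ^ j * (-z) ^ (m + 1 - j) *
            ((m + 1).choose j : ℂ) := by
          rw [Finset.mul_sum]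
          refine Finset.sum_congr rfl fun j _ => ?_
          ring
      _ = 0 := by rw [← h, mul_zero]
  have ha : ∑ j ∈ Finset.range (m + 1 + 1), ((m + 1).choose j : ℂ) *
      ((((m + 1 - j : ℕ) : ℂ) * (-z) ^ (m + 1 - j - 1) * (-1)) * Y j) =
      -((m : ℂ) + 1) * ∑ j ∈ Finset.range (m + 1), (m.choose j : ℂ) * ((-z) ^ (m - j) * Y j) := by
    rw [Finset.sum_range_succ, Finset.mul_sum]
    have hlast : ((m + 1).choose (m + 1) : ℂ) *
        ((((m + 1 - (m + 1) : ℕ) : ℂ) * (-z) ^ (m + 1 - (m + 1) - 1) * (-1)) * Y (m + 1)) = 0 := by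
      simp
    rw [hlast, add_zero]
    refine Finset.sum_congr rfl fun j hj => ?_
    have hch : ((m + 1).choose j : ℂ) * ((m + 1 - j : ℕ) : ℂ) =
        (m.choose j : ℂ) * ((m : ℂ) + 1) := by
      have := Nat.choose_mul_succ_eq m j
      have h2 : ((m.choose j * (m + 1) : ℕ) : ℂ) =
          (((m + 1).choose j * (m + 1 - j) : ℕ) : ℂ) := by
        rw [this]
      rw [Nat.cast_mul, Nat.cast_mul] at h2
      rw [← h2]
      push_cast
      ring
    have hexp : m + 1 - j - 1 = m - j := by omega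
    rw [hexp]
    calc ((m + 1).choose j : ℂ) * (((m + 1 - j : ℕ) : ℂ) * (-z) ^ (m - j) * (-1) * Y j)
        = (((m + 1).choose j : ℂ) * ((m + 1 - j : ℕ) : ℂ)) * ((-z) ^ (m - j) * (-1) * Y j) := by
          ring
      _ = -((m : ℂ) + 1) * ((m.choose j : ℂ) * ((-z) ^ (m - j) * Y j)) := by
          rw [hch]; ring
  calc ∑ j ∈ Finset.range (m + 1 + 1), ((m + 1).choose j : ℂ) *
        ((((m + 1 - j : ℕ) : ℂ) * (-z) ^ (m + 1 - j - 1) * (-1)) * Y j +
          (-z) ^ (m + 1 - j) * (w * z ^ j))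
      = ∑ j ∈ Finset.range (m + 1 + 1), ((m + 1).choose j : ℂ) *
          ((((m + 1 - j : ℕ) : ℂ) * (-z) ^ (m + 1 - j - 1) * (-1)) * Y j) +
        ∑ j ∈ Finset.range (m + 1 + 1), ((m + 1).choose j : ℂ) *
          ((-z) ^ (m + 1 - j) * (w * z ^ j)) := by
        rw [← Finset.sum_add_distrib]
        refine Finset.sum_congr rfl fun j _ => ?_
        ring
    _ = _ := by rw [ha, hb, add_zero]

theorem seprec_hasDerivAt_succ {f : CuspForm Γ ((n : ℤ) + 2)} {Hn : ℕ → ℂ → ℂ}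
    (hHn : IsNormSys f Hn) {m : ℕ} (hm : m + 1 ≤ n) (τ : ℍ) :
    HasDerivAt (seprecPhi Hn (m + 1)) (-((m : ℂ) + 1) * seprecPhi Hn m τ) (τ : ℂ) := by
  have h := seprec_hasDerivAt hHn hm τ
  rw [seprec_alg m (τ : ℂ) (f τ) (fun j => Hn j τ)] at h
  exact h

/-- a function vanishing on the upper half plane has zero derivative there -/
theorem seprec_deriv_zero {F : ℂ → ℂ} {d : ℂ} (τ : ℍ) (hF : ∀ σ : ℍ, F σ = 0)
    (hd : HasDerivAt F d τ) : d = 0 := by
  have hev : F =ᶠ[𝓝 (τ : ℂ)] fun _ => (0 : ℂ) := by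
    filter_upwards [isOpen_upperHalfPlaneSet.mem_nhds τ.im_pos] with z hz
    exact hF ⟨z, hz⟩
  exact hd.unique ((hasDerivAt_const (τ : ℂ) (0 : ℂ)).congr_of_eventuallyEq hev)

theorem sepPhi_mdiff {f : CuspForm Γ ((n : ℤ) + 2)} {Hn : ℕ → ℂ → ℂ} (hHn : IsNormSys f Hn) :
    MDiff (sepPhi n Hn) := by
  rw [UpperHalfPlane.mdifferentiable_iff]
  intro z hz
  have hd := (seprec_hasDerivAt hHn le_rfl ⟨z, hz⟩).differentiableAt.differentiableWithinAt
    (s := {z : ℂ | 0 < z.im})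
  refine hd.congr (fun w hw => ?_) ?_
  · simp only [Function.comp_apply, ofComplex_apply_of_im_pos hw, seprec_sepPhi_eq]
  · simp only [Function.comp_apply, ofComplex_apply_of_im_pos hz, seprec_sepPhi_eq]

theorem sep_eq_zero_of_sepPhi {f : CuspForm Γ ((n : ℤ) + 2)} {Hn : ℕ → ℂ → ℂ}
    (hHn : IsNormSys f Hn) (hΦ : ∀ τ : ℍ, sepPhi n Hn τ = 0) : f = 0 := by
  have hP : ∀ k : ℕ, k ≤ n → ∀ τ : ℍ, seprecPhi Hn (n - k) τ = 0 := by
    intro k
    induction k with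
    | zero =>
      intro _ τ
      rw [Nat.sub_zero, ← seprec_sepPhi_eq]
      exact hΦ τ
    | succ k ih =>
      intro hk τ
      have hstep : n - k = (n - (k + 1)) + 1 := by omega
      have hprev := ih (by omega)
      rw [hstep] at hprev
      have hd := seprec_hasDerivAt_succ hHn (m := n - (k + 1)) (by omega) τ
      have h0 := seprec_deriv_zero τ hprev hd
      have hne : -(((n - (k + 1) : ℕ) : ℂ) + 1) ≠ 0 :=
        neg_ne_zero.mpr (Nat.cast_add_one_ne_zero _)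
      exact (mul_eq_zero.mp h0).resolve_left hne
  have hP0 : ∀ τ : ℍ, seprecPhi Hn 0 τ = 0 := by
    have := hP n le_rfl
    simpa using this
  ext τ
  have hd := seprec_hasDerivAt hHn (Nat.zero_le n) τ
  have h0 := seprec_deriv_zero τ hP0 hd
  simpa using h0

end Fermat.Agent.S22
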