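import Fermat.Agent.S22.Prim
import Fermat.Agent.S22.CoreLim
import Fermat.Agent.S22.Poly
import Fermat.Agent.S22.Decay

set_option autoImplicit false

open UpperHalfPlane Complex Filter Topology Polynomial
open scoped MatrixGroups ModularForm Manifold

namespace Fermat.Agent.S22

/-! ### Moebius/slash bookkeeping for `SL(2, ℤ)` -/

theorem symb_det_pos (g : SL(2, ℤ)) : 0 < ((g : GL (Fin 2) ℝ)).det.val := by
  simp

theorem symb_moeb_coe (g : SL(2, ℤ)) (τ : ℍ) :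
    moeb (g : GL (Fin 2) ℝ) τ = ((g • τ : ℍ) : ℂ) :=
  moeb_coe (symb_det_pos g) τ

theorem symb_denom_eq (g : SL(2, ℤ)) (τ : ℍ) :
    denom (g : GL (Fin 2) ℝ) τ = ((g 1 0 : ℤ) : ℂ) * τ + ((g 1 1 : ℤ) : ℂ) := by
  simp [denom]

theorem symb_smul_eq (g : SL(2, ℤ)) (τ : ℍ) :
    ((g • τ : ℍ) : ℂ) = (((g 0 0 : ℤ) : ℂ) * τ + ((g 0 1 : ℤ) : ℂ)) /
      (((g 1 0 : ℤ) : ℂ) * τ + ((g 1 1 : ℤ) : ℂ)) := by
  rw [coe_specialLinearGroup_apply]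
  simp

/-- Change of variables: a primitive of `f Q` composed with `g ∈ SL(2, ℤ)` is a primitive of
`(f ∣[n+2] g) (Q | g)`. -/
theorem prim_slash {n : ℕ} {f : ℍ → ℂ} {Q : ℂ[X]} (hQ : Q.natDegree ≤ n) {H : ℂ → ℂ}
    (hH : IsPrim H (integrand f Q)) (g : SL(2, ℤ)) :
    IsPrim (fun z ↦ H (moeb (g : GL (Fin 2) ℝ) z))
      (integrand (f ∣[(n : ℤ) + 2] g)
        (polyAct n ((g 0 0 : ℤ) : ℂ) (g 0 1 : ℤ) (g 1 0 : ℤ) (g 1 1 : ℤ) Q)) := by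
  have h1 := hH.comp_moeb (symb_det_pos g)
  intro τ
  have h2 := h1 τ
  convert h2 using 1
  have hd : denom (g : GL (Fin 2) ℝ) τ ≠ 0 := denom_ne_zero _ τ
  have hd' : ((g 1 0 : ℤ) : ℂ) * τ + ((g 1 1 : ℤ) : ℂ) ≠ 0 := by
    rw [← symb_denom_eq]; exact hd
  simp only [integrand]
  rw [ModularForm.SL_slash_apply, eval_polyAct n _ _ _ _ hQ hd', ← symb_smul_eq, ← symb_denom_eq]
  have hdet : (((g : GL (Fin 2) ℝ)).det.val : ℂ) = 1 := by simp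
  rw [hdet]
  have hk : denom (g : GL (Fin 2) ℝ) τ ^ (-((n : ℤ) + 2)) =
      (denom (g : GL (Fin 2) ℝ) τ ^ n * denom (g : GL (Fin 2) ℝ) τ ^ 2)⁻¹ := by
    rw [zpow_neg, ← zpow_natCast, ← zpow_natCast, ← zpow_add₀ hd]
    norm_cast
  rw [hk]
  have : ((g : GL (Fin 2) ℝ) • τ) = g • τ := rfl
  rw [this]
  field_simp


variable {Γ : Subgroup SL(2, ℤ)} [Γ.FiniteIndex] {n : ℕ}

omit [Γ.FiniteIndex] in
theorem symb_continuous_slash (f : CuspForm Γ ((n : ℤ) + 2)) (g : SL(2, ℤ)) :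
    Continuous (⇑f ∣[(n : ℤ) + 2] g) := by
  have h : MDiff (⇑f ∣[(n : ℤ) + 2] (g : GL (Fin 2) ℝ)) :=
    (CuspFormClass.holo f).slash _ _
  exact h.continuous

theorem exists_tendsto_cusp (f : CuspForm Γ ((n : ℤ) + 2)) {Q : ℂ[X]} (hQ : Q.natDegree ≤ n)
    {H : ℂ → ℂ} (hH : IsPrim H (integrand f Q)) (g : SL(2, ℤ)) :
    ∃ ℓ : ℂ, ∀ x₀ s : ℝ, 0 < s →
      Tendsto (fun t : ℝ ↦ H ((g • ofComplex (x₀ + Complex.I * (s * t)) : ℍ) : ℂ)) atTop (𝓝 ℓ) := by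
  obtain ⟨c, hc, hdec⟩ := exp_decay_slash f g
  obtain ⟨ℓ, hℓ⟩ := core_lim (symb_continuous_slash f g) hc hdec _ (prim_slash hQ hH g)
  refine ⟨ℓ, fun x₀ s hs ↦ ?_⟩
  refine (hℓ x₀ s hs).congr' ?_
  filter_upwards [eventually_gt_atTop 0] with t ht
  have him : 0 < ((x₀ : ℂ) + Complex.I * (s * t)).im := by
    simp; positivity
  rw [← symb_moeb_coe, ofComplex_apply_of_im_pos him]

theorem symb_path_zero (t : ℝ) : ((0 : ℝ) : ℂ) + Complex.I * (((1 : ℝ) : ℂ) * t) = Complex.I * t := by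
  simp

theorem tendsto_cuspLim (f : CuspForm Γ ((n : ℤ) + 2)) {Q : ℂ[X]} (hQ : Q.natDegree ≤ n)
    {H : ℂ → ℂ} (hH : IsPrim H (integrand f Q)) (g : SL(2, ℤ)) :
    Tendsto (fun t : ℝ ↦ H ((g • ofComplex (Complex.I * t) : ℍ) : ℂ)) atTop (𝓝 (cuspLim H g)) := by
  obtain ⟨ℓ, hℓ⟩ := exists_tendsto_cusp f hQ hH g
  have h := hℓ 0 1 one_pos
  simp only [symb_path_zero] at h
  rw [cuspLim, h.limUnder_eq]
  exact h

theorem cuspLim_eq_of_tendsto {H : ℂ → ℂ} {g : SL(2, ℤ)} {ℓ : ℂ}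
    (h : Tendsto (fun t : ℝ ↦ H ((g • ofComplex (Complex.I * t) : ℍ) : ℂ)) atTop (𝓝 ℓ)) :
    cuspLim H g = ℓ :=
  h.limUnder_eq

theorem tendsto_cusp (f : CuspForm Γ ((n : ℤ) + 2)) {Q : ℂ[X]} (hQ : Q.natDegree ≤ n) {H : ℂ → ℂ}
    (hH : IsPrim H (integrand f Q)) (g : SL(2, ℤ)) (x₀ s : ℝ) (hs : 0 < s) :
    Tendsto (fun t : ℝ ↦ H ((g • ofComplex (x₀ + Complex.I * (s * t)) : ℍ) : ℂ)) atTop
      (𝓝 (cuspLim H g)) := by
  obtain ⟨ℓ, hℓ⟩ := exists_tendsto_cusp f hQ hH g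
  have h := hℓ 0 1 one_pos
  simp only [symb_path_zero] at h
  rw [cuspLim_eq_of_tendsto h]
  exact hℓ x₀ s hs

theorem symb_eq (f : CuspForm Γ ((n : ℤ) + 2)) {Q : ℂ[X]} (hQ : Q.natDegree ≤ n) {H : ℂ → ℂ}
    (hH : IsPrim H (integrand f Q)) (g g' : SL(2, ℤ)) :
    symb f Q g g' = cuspLim H g' - cuspLim H g := by
  have hex : ∃ H : ℂ → ℂ, IsPrim H (integrand f Q) := ⟨H, hH⟩
  rw [symb, dif_pos hex]
  obtain ⟨c, hc⟩ := (Classical.choose_spec hex).exists_eq_add_const hH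
  have key : ∀ g₀ : SL(2, ℤ), cuspLim hex.choose g₀ = cuspLim H g₀ + c := by
    intro g₀
    apply cuspLim_eq_of_tendsto
    have h := (tendsto_cuspLim f hQ hH g₀).add_const c
    refine h.congr fun t ↦ ?_
    exact (hc _).symm
  rw [key, key]
  ring


omit [Γ.FiniteIndex] in
theorem symb_exists_prim (f : CuspForm Γ ((n : ℤ) + 2)) (Q : ℂ[X]) :
    ∃ H : ℂ → ℂ, IsPrim H (integrand f Q) := by
  apply exists_isPrim
  have h1 : MDiff (⇑f) := CuspFormClass.holo f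
  have h2 : MDiff (fun τ : ℍ ↦ Q.eval (τ : ℂ)) := by
    have : Differentiable ℂ (fun z : ℂ ↦ Q.eval z) := Q.differentiable
    exact this.mdifferentiable.comp mdifferentiable_coe
  exact h1.mul h2

theorem symb_add_left (f₁ f₂ : CuspForm Γ ((n : ℤ) + 2)) {Q : ℂ[X]} (hQ : Q.natDegree ≤ n)
    (g g' : SL(2, ℤ)) : symb (⇑(f₁ + f₂)) Q g g' = symb f₁ Q g g' + symb f₂ Q g g' := by
  obtain ⟨H₁, hH₁⟩ := symb_exists_prim f₁ Q
  obtain ⟨H₂, hH₂⟩ := symb_exists_prim f₂ Q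
  have hH : IsPrim (fun z ↦ H₁ z + H₂ z) (integrand (⇑(f₁ + f₂)) Q) := by
    intro τ
    have h := (hH₁ τ).add (hH₂ τ)
    have e : integrand (⇑(f₁ + f₂)) Q τ = integrand (⇑f₁) Q τ + integrand (⇑f₂) Q τ := by
      simp [integrand, add_mul]
    rw [e]; exact h
  have key : ∀ g₀ : SL(2, ℤ), cuspLim (fun z ↦ H₁ z + H₂ z) g₀ = cuspLim H₁ g₀ + cuspLim H₂ g₀ :=
    fun g₀ ↦ cuspLim_eq_of_tendsto ((tendsto_cuspLim f₁ hQ hH₁ g₀).add (tendsto_cuspLim f₂ hQ hH₂ g₀))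
  rw [symb_eq (f₁ + f₂) hQ hH, symb_eq f₁ hQ hH₁, symb_eq f₂ hQ hH₂, key, key]
  ring

theorem symb_smul_left (c : ℂ) (f : CuspForm Γ ((n : ℤ) + 2)) {Q : ℂ[X]} (hQ : Q.natDegree ≤ n)
    (g g' : SL(2, ℤ)) : symb (⇑(c • f)) Q g g' = c * symb f Q g g' := by
  obtain ⟨H₁, hH₁⟩ := symb_exists_prim f Q
  have hH : IsPrim (fun z ↦ c * H₁ z) (integrand (⇑(c • f)) Q) := by
    intro τ
    have h := (hH₁ τ).const_mul c
    have e : integrand (⇑(c • f)) Q τ = c * integrand (⇑f) Q τ := by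
      simp [integrand, mul_assoc]
    rw [e]; exact h
  have key : ∀ g₀ : SL(2, ℤ), cuspLim (fun z ↦ c * H₁ z) g₀ = c * cuspLim H₁ g₀ :=
    fun g₀ ↦ cuspLim_eq_of_tendsto ((tendsto_cuspLim f hQ hH₁ g₀).const_mul c)
  rw [symb_eq (c • f) hQ hH, symb_eq f hQ hH₁, key, key]
  ring

theorem symb_add_poly (f : CuspForm Γ ((n : ℤ) + 2)) {Q₁ Q₂ : ℂ[X]} (hQ₁ : Q₁.natDegree ≤ n)
    (hQ₂ : Q₂.natDegree ≤ n) (g g' : SL(2, ℤ)) :
    symb f (Q₁ + Q₂) g g' = symb f Q₁ g g' + symb f Q₂ g g' := by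
  obtain ⟨H₁, hH₁⟩ := symb_exists_prim f Q₁
  obtain ⟨H₂, hH₂⟩ := symb_exists_prim f Q₂
  have hQ : (Q₁ + Q₂).natDegree ≤ n := (natDegree_add_le _ _).trans (max_le hQ₁ hQ₂)
  have hH : IsPrim (fun z ↦ H₁ z + H₂ z) (integrand f (Q₁ + Q₂)) := by
    intro τ
    have h := (hH₁ τ).add (hH₂ τ)
    have e : integrand (⇑f) (Q₁ + Q₂) τ = integrand (⇑f) Q₁ τ + integrand (⇑f) Q₂ τ := by
      simp [integrand, mul_add]
    rw [e]; exact h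
  have key : ∀ g₀ : SL(2, ℤ), cuspLim (fun z ↦ H₁ z + H₂ z) g₀ = cuspLim H₁ g₀ + cuspLim H₂ g₀ :=
    fun g₀ ↦ cuspLim_eq_of_tendsto ((tendsto_cuspLim f hQ₁ hH₁ g₀).add (tendsto_cuspLim f hQ₂ hH₂ g₀))
  rw [symb_eq f hQ hH, symb_eq f hQ₁ hH₁, symb_eq f hQ₂ hH₂, key, key]
  ring

theorem symb_smul_poly (f : CuspForm Γ ((n : ℤ) + 2)) (c : ℂ) {Q : ℂ[X]} (hQ : Q.natDegree ≤ n)
    (g g' : SL(2, ℤ)) : symb f (C c * Q) g g' = c * symb f Q g g' := by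
  obtain ⟨H₁, hH₁⟩ := symb_exists_prim f Q
  have hQ' : (C c * Q).natDegree ≤ n := (natDegree_C_mul_le _ _).trans hQ
  have hH : IsPrim (fun z ↦ c * H₁ z) (integrand f (C c * Q)) := by
    intro τ
    have h := (hH₁ τ).const_mul c
    have e : integrand (⇑f) (C c * Q) τ = c * integrand (⇑f) Q τ := by
      simp [integrand]; ring
    rw [e]; exact h
  have key : ∀ g₀ : SL(2, ℤ), cuspLim (fun z ↦ c * H₁ z) g₀ = c * cuspLim H₁ g₀ :=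
    fun g₀ ↦ cuspLim_eq_of_tendsto ((tendsto_cuspLim f hQ hH₁ g₀).const_mul c)
  rw [symb_eq f hQ' hH, symb_eq f hQ hH₁, key, key]
  ring

theorem symb_trans (f : CuspForm Γ ((n : ℤ) + 2)) {Q : ℂ[X]} (hQ : Q.natDegree ≤ n)
    (g g' g'' : SL(2, ℤ)) : symb f Q g g' + symb f Q g' g'' = symb f Q g g'' := by
  obtain ⟨H, hH⟩ := symb_exists_prim f Q
  rw [symb_eq f hQ hH, symb_eq f hQ hH, symb_eq f hQ hH]
  ring

theorem cuspLim_mul_T (f : CuspForm Γ ((n : ℤ) + 2)) {Q : ℂ[X]} (hQ : Q.natDegree ≤ n)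
    {H : ℂ → ℂ} (hH : IsPrim H (integrand f Q)) (g : SL(2, ℤ)) :
    cuspLim H (g * ModularGroup.T) = cuspLim H g := by
  apply cuspLim_eq_of_tendsto
  refine (tendsto_cusp f hQ hH g 1 1 one_pos).congr' ?_
  filter_upwards [eventually_gt_atTop 0] with t ht
  congr 2
  rw [mul_smul]
  congr 1
  ext1
  rw [modular_T_smul, coe_vadd]
  have him : 0 < (Complex.I * (t : ℂ)).im := by simpa using ht
  have him' : 0 < (((1 : ℝ) : ℂ) + Complex.I * (((1 : ℝ) : ℂ) * t)).im := by simpa using ht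
  rw [ofComplex_apply_of_im_pos him, ofComplex_apply_of_im_pos him']
  simp

theorem symb_mul_T (f : CuspForm Γ ((n : ℤ) + 2)) {Q : ℂ[X]} (hQ : Q.natDegree ≤ n)
    (g : SL(2, ℤ)) : symb f Q g (g * ModularGroup.T) = 0 := by
  obtain ⟨H, hH⟩ := symb_exists_prim f Q
  rw [symb_eq f hQ hH, cuspLim_mul_T f hQ hH, sub_self]

omit [Γ.FiniteIndex] in
theorem symb_slash_eq (f : CuspForm Γ ((n : ℤ) + 2)) {γ : SL(2, ℤ)} (hγ : γ ∈ Γ) :
    (⇑f ∣[(n : ℤ) + 2] γ) = ⇑f := by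
  rw [ModularForm.SL_slash]
  exact SlashInvariantFormClass.slash_action_eq f _ (Subgroup.mem_map_of_mem _ hγ)

theorem symb_gamma (f : CuspForm Γ ((n : ℤ) + 2)) {Q : ℂ[X]} (hQ : Q.natDegree ≤ n)
    {γ : SL(2, ℤ)} (hγ : γ ∈ Γ) (g g' : SL(2, ℤ)) :
    symb f Q (γ * g) (γ * g') =
      symb f (polyAct n ((γ 0 0 : ℤ) : ℂ) (γ 0 1 : ℤ) (γ 1 0 : ℤ) (γ 1 1 : ℤ) Q) g g' := by
  obtain ⟨H, hH⟩ := symb_exists_prim f Q
  have hK := prim_slash hQ hH γ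
  rw [symb_slash_eq f hγ] at hK
  have key : ∀ g₀ : SL(2, ℤ), cuspLim (fun z ↦ H (moeb (γ : GL (Fin 2) ℝ) z)) g₀ =
      cuspLim H (γ * g₀) := by
    intro g₀
    simp only [cuspLim, symb_moeb_coe, mul_smul]
  rw [symb_eq f hQ hH, symb_eq f (natDegree_polyAct_le _ _ _ _ _ _) hK, key, key]

/-- The modular symbol as a linear functional on cusp forms (integer polynomial `P`,
junk `0` if `natDegree P > n`). -/
noncomputable def symbL (Γ : Subgroup SL(2, ℤ)) [Γ.FiniteIndex] (n : ℕ) (P : ℤ[X])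
    (g g' : SL(2, ℤ)) : Module.Dual ℂ (CuspForm Γ ((n : ℤ) + 2)) :=
  if hP : P.natDegree ≤ n then
    { toFun := fun f ↦ symb f (P.map (Int.castRingHom ℂ)) g g'
      map_add' := fun f₁ f₂ ↦ symb_add_left f₁ f₂ (natDegree_map_le.trans hP) g g'
      map_smul' := fun c f ↦ symb_smul_left c f (natDegree_map_le.trans hP) g g' }
  else 0

theorem symbL_apply {P : ℤ[X]} (hP : P.natDegree ≤ n) (g g' : SL(2, ℤ))
    (f : CuspForm Γ ((n : ℤ) + 2)) :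
    symbL Γ n P g g' f = symb f (P.map (Int.castRingHom ℂ)) g g' := by
  simp [symbL, hP]

/-- The lattice of modular symbol functionals. -/
noncomputable def lattice (Γ : Subgroup SL(2, ℤ)) [Γ.FiniteIndex] (n : ℕ) :
    Submodule ℤ (Module.Dual ℂ (CuspForm Γ ((n : ℤ) + 2))) :=
  Submodule.span ℤ {φ | ∃ (P : ℤ[X]) (g g' : SL(2, ℤ)), P.natDegree ≤ n ∧ φ = symbL Γ n P g g'}

end Fermat.Agent.S22
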